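import Fermat.Agent.S56.Font.KumVal

/-!
# S56 / Font / KumNF : **(KUM)** Kummer generators of `L(W)/L` lie in `(1 + p O_L) L^{×p}`   (WP FONT-KUMNF)

`π^e = p`, `L = K₀(π)`, `γ = v π`.  `w ∈ L^×` with a `p`-th root `α ∈ L(W)` (i.e. fixed by
`N'' = Stab π ⊓ kerAct Γ W`).  THEN there is `y ∈ L^×` with `v (w y^p - 1) ≤ v p`.
(= Serre's upper numbering bound `u ≤ 1/(p-1)` for `K₀(W)/K₀`; sharp.)

Throughout: if `(w, α)` is a pair as above and `y ∈ L^×` then `(w y^p, α y)` is again such a pair, and a solution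
`y'` for it gives the solution `y y'` for `(w, α)`.

(P) `exists_pow_near`: `u ∈ C`, `v u = 1` ⟹ there is `d ∈ K₀` (`Fix0`), `v d = 1`, `v (u - d^p) < 1`.
    [`d₀^p = u` in `C` (`IsAlgClosed.exists_pow_nat_eq`), `v d₀ = 1`; `IsSH.res`: `d` fixed, `v (d₀ - d) < 1`;
     `d₀^p - d^p = (d₀ - d) * (integral)` (`sub_dvd_pow_sub_pow` / `Commute.mul_geom_sum₂`).]
STEP 1. `v w = γ^m` (`IsTot.exists_val_eq_zpow`), `p ∣ m` (`dvd_of_val_eq_zpow_of_root`), `m = p m'`: replace `w`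
    by `w (π^(-m'))^p`: WLOG `v w = 1`.
STEP 2. (P) for `u = w`: replace `w` by `w (d⁻¹)^p`: WLOG `v (w - 1) < 1`.
STEP 3. `kum_aux`: by induction on `k`: for all pairs `(w, α)` with `v (w - 1) ≤ γ^j`, `1 ≤ j`, `j + k = e` or `e ≤ j`:
    the conclusion holds.  [First: `v (w-1) < 1`, `w - 1 ∈ L` ⟹ `w = 1` or `v (w-1) = γ^i`, `i ≥ 1`: so `≤ γ^1`.]
    * `e ≤ j`: `y = 1`.
    * `j < e`.  If `v (w - 1) < γ^j` then `≤ γ^(j+1)` (value group of `L`): induction.  Otherwise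
      `x := w - 1`, `v x = γ^j`.
      - `p ∤ j`: `rep h π w = C 1 + rep h π x` (`rep_add`, `rep_fix`); its `j`-th coefficient is
        `(rep h π x).coeff j` (`j ≥ 1`), a unit by `val_coeff_rep_eq_one`; this contradicts `kumD`.
      - `j = p j'` (`j' ≥ 1`): (P) for `u = x / π^j`: `d ∈ K₀`, `v (x - d^p π^j) < γ^j`.  `z := d π^j'`,
        `y₀ := 1 + z`, `y₀^p = 1 + z^p + p z S` (`exists_one_add_pow_eq`), `v (p z S) ≤ γ^e γ^j' < γ^j`; so
        `v (w - y₀^p) < γ^j`, `v y₀ = 1`, `v (w (y₀⁻¹)^p - 1) < γ^j`, hence `≤ γ^(j+1)`: induction.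
-/

set_option autoImplicit false

namespace Fermat.Agent.S56.Font

open Polynomial MulAction

variable {Γ : Type*} [Group Γ] {C : Type*} [Field C] [MulSemiringAction Γ C]
  {Γ₀ : Type*} [LinearOrderedCommGroupWithZero Γ₀] {v : Valuation C Γ₀}
  {p : ℕ} {W : Type*} [Fintype W] [MulAction Γ W] {H : Set (W → C)}

/-- (P) the residue field of `K₀` is perfect (and equal to that of `C`). -/
theorem exists_pow_near [IsAlgClosed C] {ϖ : C} (h : IsSH Γ v ϖ) (hp : p ≠ 0) {u : C} (hu : v u = 1) :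
    ∃ d : C, Fix0 Γ d ∧ v d = 1 ∧ v (u - d ^ p) < 1 := by
  obtain ⟨d₀, hd₀⟩ := IsAlgClosed.exists_pow_nat_eq u (Nat.pos_of_ne_zero hp)
  have hd₀v : v d₀ = 1 := by
    have h1 : v d₀ ^ p = 1 := by rw [← map_pow, hd₀, hu]
    exact (pow_eq_one_iff_of_nonneg zero_le hp).1 h1
  obtain ⟨d, hd, hdd⟩ := h.res d₀ hd₀v.le
  have hdv : v d = 1 := by
    have h1 : d = d₀ - (d₀ - d) := by ring
    rw [h1, Valuation.map_sub_eq_of_lt_left v (by rw [hd₀v]; exact hdd), hd₀v]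
  refine ⟨d, hd, hdv, ?_⟩
  rw [← hd₀, ← geom_sum₂_mul, map_mul]
  refine lt_of_le_of_lt (mul_le_of_le_one_left zero_le ?_) hdd
  refine Valuation.map_sum_le v fun i _ => ?_
  rw [map_mul, map_pow, map_pow, hd₀v, hdv, one_pow, one_pow, one_mul]

/-- elements of `L` : `v x < γ^j ⟹ v x ≤ γ^(j+1)`. -/
lemma IsTot.val_le_pow_succ {ϖ : C} (h : IsSH Γ v ϖ) {π : C} {e : ℕ} (hπ : IsTot Γ v ϖ π e) {x : C}
    (hx : FixBy (stabilizer Γ π) x) {j : ℕ} (hlt : v x < v π ^ j) : v x ≤ v π ^ (j + 1) := by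
  by_cases hx0 : x = 0
  · rw [hx0, map_zero]; exact zero_le
  obtain ⟨m, hm⟩ := hπ.exists_val_eq_zpow h hx hx0
  have hanti := zpow_right_strictAnti₀ (val_pos_of_pow h hπ.pow) (val_lt_one_of_pow h hπ.pow)
  rw [hm, ← zpow_natCast] at hlt ⊢
  have h1 := hanti.lt_iff_gt.mp hlt
  refine hanti.le_iff_ge.mpr ?_
  push_cast
  omega

/-- STEP 3 -/
theorem kum_aux [IsAlgClosed C] (hp : p.Prime) (h : IsSH Γ v (p : C)) {π : C} {e : ℕ}
    (hπe : π ^ e = (p : C))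
    (hFL : ∀ τ : Γ₀, τ ≠ 0 → τ ^ (p - 1) < v (p : C) → IsFL v H τ (v (p : C) * τ))
    (heq : ∀ a ∈ H, ∀ (g : Γ) (w : W), a (g • w) = g • a w) (k : ℕ) :
    ∀ (j : ℕ) (w α : C), FixBy (stabilizer Γ π) w → α ^ p = w →
      FixBy (stabilizer Γ π ⊓ kerAct Γ W) α → 1 ≤ j → e ≤ j + k → v (w - 1) ≤ v π ^ j →
      ∃ y : C, y ≠ 0 ∧ FixBy (stabilizer Γ π) y ∧ v (w * y ^ p - 1) ≤ v (p : C) := by
  have hπ := isTot_of_pow_eq h hπe
  have hγ0 : 0 < v π := val_pos_of_pow h hπ.pow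
  have hγ1 : v π < 1 := val_lt_one_of_pow h hπ.pow
  have hπ0 : π ≠ 0 := ne_zero_of_pow' h hπ.pow
  have hπfix : FixBy (stabilizer Γ π) π := fixBy_stabilizer π
  have hdone : ∀ (j : ℕ) (w : C), e ≤ j → v (w - 1) ≤ v π ^ j →
      ∃ y : C, y ≠ 0 ∧ FixBy (stabilizer Γ π) y ∧ v (w * y ^ p - 1) ≤ v (p : C) := by
    intro j w hej hwj
    refine ⟨1, one_ne_zero, Fix0.one.fixBy _, ?_⟩
    rw [one_pow, mul_one, ← hπ.pow]
    exact hwj.trans (pow_le_pow_of_le_one zero_le hγ1.le hej)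
  induction k with
  | zero =>
    intro j w α _ _ _ _ hjk hwj
    exact hdone j w (by omega) hwj
  | succ k ih =>
    intro j w α hw hα hαfix hj1 hjk hwj
    by_cases hej : e ≤ j
    · exact hdone j w hej hwj
    rw [not_le] at hej
    have hxfix : FixBy (stabilizer Γ π) (w - 1) := hw.sub (Fix0.one.fixBy _)
    rcases hwj.lt_or_eq with hlt | hxv
    · exact ih (j + 1) w α hw hα hαfix (by omega) (by omega) (hπ.val_le_pow_succ h hxfix hlt)
    have hx1 : v (w - 1) < 1 := by rw [hxv]; exact pow_lt_one₀ zero_le hγ1 (by omega)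
    have hwv : v w = 1 := by
      have h1 : w = 1 + (w - 1) := by ring
      rw [h1, v.map_one_add_of_lt hx1]
    by_cases hpj : p ∣ j
    · obtain ⟨j', rfl⟩ := hpj
      have hj' : 1 ≤ j' := by
        rcases Nat.eq_zero_or_pos j' with rfl | h0
        · simp at hj1
        · exact h0
      have huv : v ((w - 1) / π ^ (p * j')) = 1 := by
        rw [map_div₀, hxv, map_pow, div_self (pow_ne_zero _ hγ0.ne')]
      obtain ⟨d, hd, hdv, hdu⟩ := exists_pow_near h hp.ne_zero huv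
      have hclose : v (w - 1 - d ^ p * π ^ (p * j')) < v π ^ (p * j') := by
        have h1 : w - 1 - d ^ p * π ^ (p * j') =
            ((w - 1) / π ^ (p * j') - d ^ p) * π ^ (p * j') := by
          field_simp
        rw [h1, map_mul, map_pow]
        exact mul_lt_of_lt_one_left (pow_pos hγ0 _) hdu
      set z : C := d * π ^ j' with hz
      have hzv : v z = v π ^ j' := by rw [hz, map_mul, hdv, one_mul, map_pow]
      have hz1 : v z < 1 := by rw [hzv]; exact pow_lt_one₀ zero_le hγ1 (by omega)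
      obtain ⟨S, hS, hpow⟩ := exists_one_add_pow_eq hp v hz1.le
      have hS1 : v S ≤ 1 := by
        have h1 : S = (S - 1) + 1 := by ring
        rw [h1]
        exact (v.map_add _ _).trans (max_le (hS.trans hz1.le) (by rw [map_one]))
      have hzp : z ^ p = d ^ p * π ^ (p * j') := by rw [hz, mul_pow, ← pow_mul, mul_comm j']
      set y₀ : C := 1 + z with hy₀
      have hy₀v : v y₀ = 1 := v.map_one_add_of_lt hz1
      have hy₀0 : y₀ ≠ 0 := by rw [← v.ne_zero_iff, hy₀v]; exact one_ne_zero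
      have hy₀fix : FixBy (stabilizer Γ π) y₀ :=
        (Fix0.one.fixBy _).add ((hd.fixBy _).mul (hπfix.pow _))
      have hsmall : v ((p : C) * z * S) < v π ^ (p * j') := by
        rw [map_mul, map_mul, ← hπ.pow]
        calc v π ^ e * v z * v S ≤ v π ^ e * 1 * 1 := by
              gcongr
          _ = v π ^ e := by rw [mul_one, mul_one]
          _ < v π ^ (p * j') := pow_lt_pow_right_of_lt_one₀ hγ0 hγ1 hej
      have hdiff : v (w - y₀ ^ p) < v π ^ (p * j') := by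
        have h1 : w - y₀ ^ p = (w - 1 - d ^ p * π ^ (p * j')) - (p : C) * z * S := by
          rw [hpow, hzp]; ring
        rw [h1]
        exact (v.map_sub _ _).trans_lt (max_lt hclose hsmall)
      have hnew : v (w * y₀⁻¹ ^ p - 1) < v π ^ (p * j') := by
        have h1 : w * y₀⁻¹ ^ p - 1 = (w - y₀ ^ p) * y₀⁻¹ ^ p := by
          rw [sub_mul, ← mul_pow, mul_inv_cancel₀ hy₀0, one_pow]
        rw [h1, map_mul, map_pow, map_inv₀, hy₀v, inv_one, one_pow, mul_one]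
        exact hdiff
      have hwfix' : FixBy (stabilizer Γ π) (w * y₀⁻¹ ^ p) := hw.mul (hy₀fix.inv.pow p)
      obtain ⟨y, hy0, hyfix, hy⟩ := ih (p * j' + 1) (w * y₀⁻¹ ^ p) (α * y₀⁻¹) hwfix'
        (by rw [mul_pow, hα]) (hαfix.mul (hy₀fix.inv.mono inf_le_left)) (by omega) (by omega)
        (hπ.val_le_pow_succ h (hwfix'.sub (Fix0.one.fixBy _)) hnew)
      refine ⟨y₀⁻¹ * y, mul_ne_zero (inv_ne_zero hy₀0) hy0, hy₀fix.inv.mul hyfix, ?_⟩
      rw [mul_pow, ← mul_assoc]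
      exact hy
    · exfalso
      have hrep : rep h π w = Polynomial.C 1 + rep h π (w - 1) := by
        have h1 : w = 1 + (w - 1) := by ring
        conv_lhs => rw [h1]
        rw [rep_add, rep_fix h π Fix0.one]
      have hunit := val_coeff_rep_eq_one h hπ hxfix hej hxv
      have hdeg : (rep h π w).degree < (e : ℕ) := by
        have := degree_rep_lt h π w
        rwa [hπ.index] at this
      have hlt := kumD hp h hπe hFL heq (fixPoly_rep h hw) hdeg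
        (hπ.val_coeff_rep_le_one h hw hwv.le) (α := α) (by rw [eval_rep h hw, hα]) hαfix hpj
      rw [hrep, coeff_add, coeff_C, if_neg (by omega), zero_add] at hlt
      exact hlt.ne hunit

/-- **(KUM)** -/
theorem kum [IsAlgClosed C] (hp : p.Prime) (h : IsSH Γ v (p : C)) {π : C} {e : ℕ}
    (hπe : π ^ e = (p : C))
    (hFL : ∀ τ : Γ₀, τ ≠ 0 → τ ^ (p - 1) < v (p : C) → IsFL v H τ (v (p : C) * τ))
    (heq : ∀ a ∈ H, ∀ (g : Γ) (w : W), a (g • w) = g • a w)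
    {w α : C} (hw : FixBy (stabilizer Γ π) w) (hw0 : w ≠ 0) (hα : α ^ p = w)
    (hαfix : FixBy (stabilizer Γ π ⊓ kerAct Γ W) α) :
    ∃ y : C, y ≠ 0 ∧ FixBy (stabilizer Γ π) y ∧ v (w * y ^ p - 1) ≤ v (p : C) := by
  have hπ := isTot_of_pow_eq h hπe
  have hγ0 : 0 < v π := val_pos_of_pow h hπ.pow
  have hπ0 : π ≠ 0 := ne_zero_of_pow' h hπ.pow
  have hπfix : FixBy (stabilizer Γ π) π := fixBy_stabilizer π
  -- STEP 1
  obtain ⟨m, hm⟩ := hπ.exists_val_eq_zpow h hw hw0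
  obtain ⟨m', rfl⟩ := dvd_of_val_eq_zpow_of_root hp h hπe hFL heq hw hα hαfix hm
  set y₁ : C := π ^ (-m') with hy₁
  have hy₁0 : y₁ ≠ 0 := zpow_ne_zero _ hπ0
  have hy₁fix : FixBy (stabilizer Γ π) y₁ := hπfix.zpow' _
  have hw₁v : v (w * y₁ ^ p) = 1 := by
    rw [map_mul, hm, map_pow, hy₁, map_zpow₀, ← zpow_natCast (v π ^ (-m')), ← zpow_mul,
      ← zpow_add₀ hγ0.ne']
    have : (p : ℤ) * m' + -m' * (p : ℤ) = 0 := by ring
    rw [this, zpow_zero]
  -- STEP 2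
  obtain ⟨d, hd, hdv, hdu⟩ := exists_pow_near h hp.ne_zero hw₁v
  have hd0 : d ≠ 0 := by rw [← v.ne_zero_iff, hdv]; exact one_ne_zero
  set y₂ : C := y₁ * d⁻¹ with hy₂
  have hy₂0 : y₂ ≠ 0 := mul_ne_zero hy₁0 (inv_ne_zero hd0)
  have hy₂fix : FixBy (stabilizer Γ π) y₂ := hy₁fix.mul (hd.inv.fixBy _)
  have hw₂fix : FixBy (stabilizer Γ π) (w * y₂ ^ p) := hw.mul (hy₂fix.pow p)
  have hw₂ : v (w * y₂ ^ p - 1) < v π ^ 0 := by
    have h1 : w * y₂ ^ p - 1 = (w * y₁ ^ p - d ^ p) * d⁻¹ ^ p := by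
      rw [hy₂, mul_pow, sub_mul, ← mul_pow d, mul_inv_cancel₀ hd0, one_pow, mul_assoc]
    rw [h1, map_mul, map_pow, map_inv₀, hdv, inv_one, one_pow, mul_one, pow_zero]
    exact hdu
  -- STEP 3
  obtain ⟨y, hy0, hyfix, hy⟩ := kum_aux hp h hπe hFL heq e 1 (w * y₂ ^ p) (α * y₂) hw₂fix
    (by rw [mul_pow, hα]) (hαfix.mul (hy₂fix.mono inf_le_left)) le_rfl (by omega)
    (hπ.val_le_pow_succ h (hw₂fix.sub (Fix0.one.fixBy _)) hw₂)
  refine ⟨y₂ * y, mul_ne_zero hy₂0 hy0, hy₂fix.mul hyfix, ?_⟩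
  rw [mul_pow, ← mul_assoc]
  exact hy

end Fermat.Agent.S56.Font
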