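import Fermat.Agent.S56.Font.FL
import Fermat.Agent.S56.Font.KumNF

/-!
# S56 / Font / Main : the ramification bound for function orders killed by `p`

`IsFnOrder` (helper57, `FL.lean`) ⟹ `IsFL` (`PM.lean`) ⟹ (KUM-D), (KUM).
-/

set_option autoImplicit false

namespace Fermat.Agent.S56.Font

open Polynomial MulAction

variable {C : Type} [Field C] {Γ₀ : Type} [LinearOrderedCommGroupWithZero Γ₀]
  {W : Type} [AddCommGroup W] [Fintype W] {v : Valuation C Γ₀} {H : Subring (W → C)} {p : ℕ}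

theorem IsFnOrder.isFL (hH : IsFnOrder v H) (hp : p.Prime) (hW : ∀ w : W, p • w = 0)
    (hp0 : v (p : C) ≠ 0) (harch : ∀ g : Γ₀, g < 1 → ∀ d : Γ₀, d ≠ 0 → ∃ n : ℕ, g ^ n ≤ d)
    (τ : Γ₀) (hτ0 : τ ≠ 0) (hτ : τ ^ (p - 1) < v (p : C)) :
    IsFL v (H : Set (W → C)) τ (v (p : C) * τ) where
  int := hH.int
  near _ _ h := eq_of_near hH hp hW hp0 harch hτ0 hτ h
  lift c hint h1 hmul := exists_near_point hH hp hW hp0 harch hτ0 hτ c hint h1 hmul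

variable {Γ : Type*} [Group Γ] [MulSemiringAction Γ C] [MulAction Γ W]

/-- **(KUM)** for function orders: `L = K₀(π)`, `π^e = p`.  Every `w ∈ L^×` with a `p`-th root in `L(W)` lies in
`(1 + p O_L) L^{×p}`. -/
theorem IsFnOrder.kum [IsAlgClosed C] (hH : IsFnOrder v H) (hp : p.Prime) (hW : ∀ w : W, p • w = 0)
    (harch : ∀ g : Γ₀, g < 1 → ∀ d : Γ₀, d ≠ 0 → ∃ n : ℕ, g ^ n ≤ d)
    (h : IsSH Γ v (p : C)) (heq : ∀ a ∈ H, ∀ (g : Γ) (w : W), a (g • w) = g • a w)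
    {π : C} {e : ℕ} (hπe : π ^ e = (p : C))
    {w α : C} (hw : FixBy (stabilizer Γ π) w) (hw0 : w ≠ 0) (hα : α ^ p = w)
    (hαfix : FixBy (stabilizer Γ π ⊓ kerAct Γ W) α) :
    ∃ y : C, y ≠ 0 ∧ FixBy (stabilizer Γ π) y ∧ v (w * y ^ p - 1) ≤ v (p : C) :=
  Font.kum (H := (H : Set (W → C))) hp h hπe (hH.isFL hp hW h.val_pos.ne' harch) heq hw hw0 hα hαfix

end Fermat.Agent.S56.Font
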