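import Fermat.Agent.S56.Font.LT.Sub

/-!
# S56 / Font / Comp : the first order term of `c ↦ w(π(1 + c π^s))`            (WP FONT-COMP)

Small auxiliary lemmas and the computation (COMP).

(COMP) `L = K₀(π)` totally ramified of degree `e` over `K₀`, `γ = v π`, `γ^e = v p`.  `Lw = ∑_{i<e} w_i X^i`,
`w_i ∈ O_{K₀}`; `i0 < e`, `p ∤ i0`, `w_{i0}` a unit, `w_i` a non-unit for `i < i0`, `p ∤ i`; `(p-1) s > e`;
`c, c'` integral with `v (c - c') = 1`.  Put `x = 1 + c π^s`, `x' = 1 + c' π^s`, `δ = π^s`.  THEN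
   `v (Lw(π x) - Lw(π x')) = γ^(i0+s)`.
PROOF. `Lw(π x) - Lw(π x') = ∑_{i<e} w_i π^i (x^i - x'^i)` (`eval_eq_sum_range_of_degree_lt`).
 (1) `x^i - x'^i = (x - x') T_i = (c - c') δ T_i`, `T_i = ∑_{k<i} x^k x'^(i-1-k)` (`Commute.mul_geom_sum₂` /
     `mul_geom_sum₂`), `v T_i ≤ 1`, and `v (T_i - i) ≤ v δ < 1` because `x, x' ≡ 1 mod δ`.
 (2) `i = i0`: `v (i0 : C) = 1` (`p ∤ i0`: Bezout, `v p < 1`), so `v T_{i0} = 1`: the term has valuation `γ^(i0+s)`.
 (3) `p ∤ i`, `i ≠ i0`: `v (w_i π^i) < γ^i0`  [`i > i0`: clear; `i < i0`: `v w_i ≤ v p = γ^e` by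
     `val_le_of_lt_one`, and `e > i0`], `v T_i ≤ 1`: the term has valuation `< γ^(i0+s)`.
 (4) `p ∣ i`, `i = p k`: `x^p = 1 + X`, `x'^p = 1 + X'` with `v X, v X' ≤ max (v p * v δ) (v δ ^ p)`
     (`add_pow_prime_eq`, or `exists_one_add_pow_eq`-type identity: `(1+z)^p = 1 + z^p + p z S`, `v S ≤ 1`);
     `x^i - x'^i = (1+X)^k - (1+X')^k = (X - X') * (integral)`; so the term has valuation
     `≤ max (γ^(e+s)) (γ^(p s)) < γ^(i0+s)` because `e > i0` and `(p-1) s > e > i0`.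
 Conclude with `Valuation.map_sum_eq_of_lt` (one dominant term), as in `LT/Rep.lean`.
-/

set_option autoImplicit false

namespace Fermat.Agent.S56.Font

open Polynomial MulAction

variable {Γ : Type*} [Group Γ] {C : Type*} [Field C] [MulSemiringAction Γ C]
  {Γ₀ : Type*} [LinearOrderedCommGroupWithZero Γ₀] {v : Valuation C Γ₀}

section Aux

variable {ϖ : C}

theorem isTot_of_pow_eq (h : IsSH Γ v ϖ) {π : C} {e : ℕ} (hπe : π ^ e = ϖ) : IsTot Γ v ϖ π e := by
  have he : e ≠ 0 := by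
    rintro rfl
    rw [pow_zero] at hπe
    have := h.lt_one
    rw [← hπe, map_one] at this
    exact lt_irrefl _ this
  have hQ : IsEis Γ v ϖ (X ^ e - Polynomial.C ϖ) e := by
    refine ⟨monic_X_pow_sub_C ϖ he, natDegree_X_pow_sub_C, ?_, fun i hi => ?_, ?_⟩
    · rw [fixPoly_iff]
      intro g
      rw [smul_sub, smul_pow', smul_X, smul_C, h.fix g]
    · rw [coeff_sub, coeff_X_pow, if_neg hi.ne, zero_sub, Valuation.map_neg, coeff_C]
      split_ifs
      · exact le_rfl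
      · rw [map_zero]; exact zero_le
    · rw [coeff_sub, coeff_X_pow, if_neg (Ne.symm he), zero_sub, Valuation.map_neg, coeff_C_zero]
  exact hQ.isTot_root h (by rw [eval_sub, eval_pow, eval_X, eval_C, hπe, sub_self])

omit [MulSemiringAction Γ C] in
lemma val_one_add_pow_sub_one_le {x : C} (hx : v x ≤ 1) (e : ℕ) : v ((1 + x) ^ e - 1) ≤ v x := by
  have h1 : (1 + x) ^ e - 1 = x * ∑ i ∈ Finset.range e, (1 + x) ^ i := by
    have := mul_geom_sum (1 + x) e
    rw [← this]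
    ring
  have h2 : v (1 + x) ≤ 1 := (v.map_add _ _).trans (max_le (by rw [map_one]) hx)
  rw [h1, map_mul]
  refine mul_le_of_le_one_right' (Valuation.map_sum_le v fun i _ => ?_)
  rw [map_pow]
  exact pow_le_one₀ zero_le h2

lemma coeff_mp_mem_O0 (h : IsSH Γ v ϖ) {θ : C} {n : ℕ} (hθ : IsTot Γ v ϖ θ n) (i : ℕ) :
    (mp h θ).coeff i ∈ O0 Γ v := by
  have hE := hθ.isEis_mp h
  refine ⟨fixPoly_mp h θ i, ?_⟩
  rcases lt_trichotomy i n with hi | hi | hi
  · exact (hE.le i hi).trans h.lt_one.le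
  · rw [hi, ← hE.natDegree, (mp_monic h θ).coeff_natDegree, map_one]
  · rw [coeff_eq_zero_of_natDegree_lt (by rw [hE.natDegree]; exact hi), map_zero]
    exact zero_le

end Aux

variable {p : ℕ}

lemma exists_exponent (hp : p.Prime) {e i0 : ℕ} (hi0 : i0 + 3 ≤ e) :
    ∃ t : ℕ, e < (p - 1) * t ∧ (p - 1) * (t + i0) < p * e ∧ ¬ p ∣ (t + i0) := by
  obtain ⟨d, rfl⟩ : ∃ d, p = d + 1 := ⟨p - 1, (Nat.succ_pred_eq_of_pos hp.pos).symm⟩
  have hd : 0 < d := by
    have := hp.two_le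
    omega
  rw [Nat.add_sub_cancel]
  set q := e / d with hq
  have h1 : e < d * (q + 1) := Nat.lt_mul_div_succ e hd
  have h2 : d * q ≤ e := Nat.mul_div_le e d
  obtain ⟨r, rfl⟩ : ∃ r, e = i0 + 3 + r := ⟨e - (i0 + 3), by omega⟩
  by_cases hdiv : (d + 1) ∣ (q + 1 + i0)
  · refine ⟨q + 2, ?_, ?_, ?_⟩
    · nlinarith
    · nlinarith
    · intro h3
      have h4 : (d + 1) ∣ 1 := by
        have := (Nat.dvd_sub h3 hdiv)
        have e1 : q + 2 + i0 - (q + 1 + i0) = 1 := by omega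
        rwa [e1] at this
      have := Nat.le_of_dvd one_pos h4
      omega
  · exact ⟨q + 1, h1, by nlinarith, hdiv⟩

section CompAux

omit [MulSemiringAction Γ C] in
lemma comp_val_natCast_le_one (n : ℕ) : v (n : C) ≤ 1 :=
  (Valuation.mem_integer_iff v _).mp (natCast_mem v.integer n)

omit [MulSemiringAction Γ C] in
lemma comp_val_intCast_le_one (n : ℤ) : v (n : C) ≤ 1 :=
  (Valuation.mem_integer_iff v _).mp (intCast_mem v.integer n)

omit [MulSemiringAction Γ C] in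
lemma comp_val_natCast_eq_one (hp : p.Prime) (hvp : v (p : C) < 1) {i : ℕ} (hi : ¬ p ∣ i) :
    v (i : C) = 1 := by
  have hcop : Nat.Coprime p i := (Nat.Prime.coprime_iff_not_dvd hp).mpr hi
  have hb := Nat.gcd_eq_gcd_ab p i
  rw [hcop.gcd_eq_one] at hb
  have hb' : (1 : C) = (p : C) * ((Nat.gcdA p i : ℤ) : C) + (i : C) * ((Nat.gcdB p i : ℤ) : C) := by
    exact_mod_cast congrArg (Int.cast : ℤ → C) hb
  have h1 : v ((p : C) * ((Nat.gcdA p i : ℤ) : C)) < 1 := by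
    rw [map_mul]
    exact lt_of_le_of_lt (mul_le_of_le_one_right' (comp_val_intCast_le_one _)) hvp
  have h2 : v ((i : C) * ((Nat.gcdB p i : ℤ) : C)) = 1 := by
    have h3 : (i : C) * ((Nat.gcdB p i : ℤ) : C) = 1 - (p : C) * ((Nat.gcdA p i : ℤ) : C) := by
      rw [hb']; ring
    rw [h3]
    exact Valuation.map_one_sub_of_lt v h1
  refine le_antisymm (comp_val_natCast_le_one i) ?_
  rw [← h2, map_mul]
  exact mul_le_of_le_one_right' (comp_val_intCast_le_one _)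

omit [MulSemiringAction Γ C] in
lemma comp_val_pow_prime_sub_one (hp : p.Prime) {z : C} (hz : v z ≤ 1) :
    v ((1 + z) ^ p - 1) ≤ max (v z ^ p) (v (p : C) * v z) := by
  have h1 := add_pow_prime_eq hp (1 : C) z
  set S := ∑ k ∈ Finset.Ioo 0 p, (1 : C) ^ (k - 1) * z ^ (p - k - 1) * ((p.choose k / p : ℕ) : C)
    with hS
  have hS1 : v S ≤ 1 := by
    refine Valuation.map_sum_le v fun k _ => ?_
    rw [map_mul, map_mul, map_pow, map_pow, map_one, one_pow, one_mul]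
    exact mul_le_one' (pow_le_one₀ zero_le hz) (comp_val_natCast_le_one _)
  have h2 : (1 + z) ^ p - 1 = z ^ p + (p : C) * z * S := by
    rw [h1]; ring
  rw [h2]
  refine (v.map_add _ _).trans (max_le_max (by rw [map_pow]) ?_)
  rw [map_mul, map_mul]
  exact mul_le_of_le_one_right' hS1

omit [MulSemiringAction Γ C] in
lemma comp_val_geom₂_le_one {x y : C} (hx : v x ≤ 1) (hy : v y ≤ 1) (n : ℕ) :
    v (∑ k ∈ Finset.range n, x ^ k * y ^ (n - 1 - k)) ≤ 1 := by
  refine Valuation.map_sum_le v fun k _ => ?_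
  rw [map_mul, map_pow, map_pow]
  exact mul_le_one' (pow_le_one₀ zero_le hx) (pow_le_one₀ zero_le hy)

omit [MulSemiringAction Γ C] in
lemma comp_val_pow_mul_pow_sub_one {x y : C} (hx : v (x - 1) < 1) (hy : v (y - 1) < 1) (k m : ℕ) :
    v (x ^ k * y ^ m - 1) < 1 := by
  have key : ∀ (a : C), v (a - 1) < 1 → ∀ n : ℕ, v (a ^ n - 1) < 1 ∧ v (a ^ n) ≤ 1 := by
    intro a ha n
    have h1 := val_one_add_pow_sub_one_le (v := v) ha.le n
    rw [add_sub_cancel] at h1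
    have h2 : v (a ^ n - 1) < 1 := lt_of_le_of_lt h1 ha
    refine ⟨h2, ?_⟩
    have h3 : a ^ n = (a ^ n - 1) + 1 := by ring
    rw [h3]
    exact (v.map_add _ _).trans (max_le h2.le (by rw [map_one]))
  have h1 : x ^ k * y ^ m - 1 = (x ^ k - 1) * y ^ m + (y ^ m - 1) := by ring
  rw [h1]
  refine lt_of_le_of_lt (v.map_add _ _) (max_lt ?_ (key y hy m).1)
  rw [map_mul]
  exact lt_of_le_of_lt (mul_le_of_le_one_right' (key y hy m).2) (key x hx k).1

end CompAux

/-- (COMP) the first order term of `c ↦ w(π(1 + c π^s))`. -/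
theorem val_eval_pert_sub (hp : p.Prime) (h : IsSH Γ v (p : C)) {π : C} {e : ℕ}
    (hπ : IsTot Γ v (p : C) π e)
    {Lw : C[X]} (hLfix : FixPoly Γ Lw) (hLdeg : Lw.degree < (e : ℕ)) (hLint : ∀ i, v (Lw.coeff i) ≤ 1)
    {i0 s : ℕ} (hi0 : i0 < e) (hpi0 : ¬ p ∣ i0) (hunit : v (Lw.coeff i0) = 1)
    (hmin : ∀ i < i0, ¬ p ∣ i → v (Lw.coeff i) < 1) (hs : e < (p - 1) * s)
    {c c' : C} (hc : v c ≤ 1) (hc' : v c' ≤ 1) (hcc' : v (c - c') = 1) :
    v (Lw.eval (π * (1 + c * π ^ s)) - Lw.eval (π * (1 + c' * π ^ s))) = v π ^ (i0 + s) := by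
  classical
  set γ := v π with hγ
  have hγe : γ ^ e = v (p : C) := hπ.pow
  have hγ0 : 0 < γ := val_pos_of_pow h hπ.pow
  have hγ1 : γ < 1 := val_lt_one_of_pow h hπ.pow
  have hs0 : s ≠ 0 := by
    rintro rfl
    simp at hs
  set δ := π ^ s with hδ
  have hvδ : v δ = γ ^ s := by rw [hδ, map_pow]
  have hvδ1 : v δ < 1 := by rw [hvδ]; exact pow_lt_one₀ zero_le hγ1 hs0
  have hz : v (c * δ) ≤ γ ^ s := by
    rw [map_mul, hvδ]; exact mul_le_of_le_one_left' hc
  have hz' : v (c' * δ) ≤ γ ^ s := by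
    rw [map_mul, hvδ]; exact mul_le_of_le_one_left' hc'
  have hγs1 : γ ^ s < 1 := hvδ ▸ hvδ1
  set x := 1 + c * δ with hx
  set x' := 1 + c' * δ with hx'
  have hx1 : v (x - 1) < 1 := by
    rw [hx, add_sub_cancel_left]; exact lt_of_le_of_lt hz hγs1
  have hx1' : v (x' - 1) < 1 := by
    rw [hx', add_sub_cancel_left]; exact lt_of_le_of_lt hz' hγs1
  have hvx : v x ≤ 1 := (v.map_add _ _).trans (max_le (by rw [map_one]) (hz.trans hγs1.le))
  have hvx' : v x' ≤ 1 := (v.map_add _ _).trans (max_le (by rw [map_one]) (hz'.trans hγs1.le))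
  have hdiff : x - x' = (c - c') * δ := by rw [hx, hx']; ring
  have hvdiff : v (x - x') = γ ^ s := by rw [hdiff, map_mul, hcc', one_mul, hvδ]
  have hT : ∀ i, x ^ i - x' ^ i =
      (∑ k ∈ Finset.range i, x ^ k * x' ^ (i - 1 - k)) * (x - x') :=
    fun i => (geom_sum₂_mul x x' i).symm
  have hsum : Lw.eval (π * x) - Lw.eval (π * x') =
      ∑ i ∈ Finset.range e, Lw.coeff i * π ^ i * (x ^ i - x' ^ i) := by
    rw [eval_eq_sum_range_of_degree_lt hLdeg, eval_eq_sum_range_of_degree_lt hLdeg,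
      ← Finset.sum_sub_distrib]
    exact Finset.sum_congr rfl fun i _ => by rw [mul_pow, mul_pow]; ring
  have hvp : v (p : C) < 1 := h.lt_one
  have hmain : v (Lw.coeff i0 * π ^ i0 * (x ^ i0 - x' ^ i0)) = γ ^ (i0 + s) := by
    have h1 : v (∑ k ∈ Finset.range i0, x ^ k * x' ^ (i0 - 1 - k)) = 1 := by
      have h2 : ∑ k ∈ Finset.range i0, x ^ k * x' ^ (i0 - 1 - k) =
          (i0 : C) + ∑ k ∈ Finset.range i0, (x ^ k * x' ^ (i0 - 1 - k) - 1) := by
        rw [Finset.sum_sub_distrib, Finset.sum_const, Finset.card_range, nsmul_eq_mul, mul_one]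
        ring
      have h3 : v (∑ k ∈ Finset.range i0, (x ^ k * x' ^ (i0 - 1 - k) - 1)) < 1 :=
        Valuation.map_sum_lt v one_ne_zero fun k _ => comp_val_pow_mul_pow_sub_one hx1 hx1' _ _
      have h4 := comp_val_natCast_eq_one (v := v) hp hvp hpi0
      rw [h2, Valuation.map_add_eq_of_lt_left v (by rw [h4]; exact h3), h4]
    rw [hT, map_mul, map_mul, map_mul, map_pow, hunit, h1, hvdiff, one_mul, one_mul, pow_add]
  rw [hsum, ← hmain]
  refine Valuation.map_sum_eq_of_lt v (Finset.mem_range.mpr hi0) fun i hi => ?_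
  rw [hmain]
  rw [Finset.mem_sdiff, Finset.mem_range, Finset.mem_singleton] at hi
  obtain ⟨hie, hne⟩ := hi
  have hγs0 : 0 < γ ^ s := pow_pos hγ0 s
  by_cases hpi : p ∣ i
  · obtain ⟨k, rfl⟩ := hpi
    have h1 : x ^ (p * k) - x' ^ (p * k) =
        (∑ j ∈ Finset.range k, (x ^ p) ^ j * (x' ^ p) ^ (k - 1 - j)) * (x ^ p - x' ^ p) := by
      rw [geom_sum₂_mul, pow_mul, pow_mul]
    have hxp : v (x ^ p) ≤ 1 := by rw [map_pow]; exact pow_le_one₀ zero_le hvx
    have hxp' : v (x' ^ p) ≤ 1 := by rw [map_pow]; exact pow_le_one₀ zero_le hvx'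
    have hbound : ∀ z : C, v z ≤ γ ^ s → v ((1 + z) ^ p - 1) < γ ^ (i0 + s) := by
      intro z hzz
      refine lt_of_le_of_lt (comp_val_pow_prime_sub_one hp (hzz.trans hγs1.le)) (max_lt ?_ ?_)
      · refine lt_of_le_of_lt (pow_le_pow_left₀ zero_le hzz p) ?_
        rw [← pow_mul]
        refine pow_lt_pow_right_of_lt_one₀ hγ0 hγ1 ?_
        obtain ⟨d, rfl⟩ : ∃ d, p = d + 1 := ⟨p - 1, (Nat.succ_pred_eq_of_pos hp.pos).symm⟩
        rw [Nat.add_sub_cancel] at hs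
        nlinarith
      · rw [← hγe]
        refine lt_of_le_of_lt (mul_le_mul_right hzz _) ?_
        rw [← pow_add]
        exact pow_lt_pow_right_of_lt_one₀ hγ0 hγ1 (by omega)
    have h2 : v (x ^ p - x' ^ p) < γ ^ (i0 + s) := by
      have h3 : x ^ p - x' ^ p = (x ^ p - 1) - (x' ^ p - 1) := by ring
      rw [h3]
      exact lt_of_le_of_lt (v.map_sub _ _) (max_lt (hbound _ hz) (hbound _ hz'))
    rw [h1, map_mul, map_mul, map_mul, map_pow, ← mul_assoc]
    refine lt_of_le_of_lt ?_ h2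
    exact mul_le_of_le_one_left' (mul_le_one' (mul_le_one' (hLint _)
      (pow_le_one₀ zero_le hγ1.le)) (comp_val_geom₂_le_one hxp hxp' k))
  · have h1 : v (Lw.coeff i * π ^ i) < γ ^ i0 := by
      rw [map_mul, map_pow]
      rcases lt_or_gt_of_ne hne with hlt | hgt
      · have h2 := val_le_of_lt_one h (hLfix i) (hmin i hlt hpi)
        rw [← hγe] at h2
        refine lt_of_le_of_lt (mul_le_of_le_one_right' (pow_le_one₀ zero_le hγ1.le)) ?_
        exact lt_of_le_of_lt h2 (pow_lt_pow_right_of_lt_one₀ hγ0 hγ1 hi0)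
      · refine lt_of_le_of_lt (mul_le_of_le_one_left' (hLint i)) ?_
        exact pow_lt_pow_right_of_lt_one₀ hγ0 hγ1 hgt
    have h2 : v (x ^ i - x' ^ i) ≤ γ ^ s := by
      rw [hT, map_mul, hvdiff]
      exact mul_le_of_le_one_left' (comp_val_geom₂_le_one hvx hvx' i)
    rw [map_mul, pow_add]
    exact lt_of_le_of_lt (mul_le_mul_right h2 _) ((mul_lt_mul_iff_left₀ hγs0).mpr h1)

end Fermat.Agent.S56.Font
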