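import Fermat.Agent.S56.Font.FL.Pair

/-!
# S56 / Font / FL : Fontaine's lifting lemma for function orders killed by `p`

`W` a finite abelian group killed by `p`, `Ω` a valued field (rank one: `harch`), `H` a subring of
`W → Ω` of integral valued functions, separating the points and stable under comultiplication
(a "Hopf order").  `τ ^ (p - 1) < |p|`.

* `eq_of_near` : two points which are `τ`-close on `H` are equal.
* `exists_near_point` : a functional `c` on `H` (given by its coefficient vector) which is integral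
  and multiplicative up to `|p| τ` is `τ`-close to the evaluation at a point.
-/

set_option autoImplicit false
set_option linter.unusedSectionVars false

namespace Fermat.Agent.S56.Font

open AddMonoidAlgebra

variable {Ω : Type} [Field Ω] {Γ₀ : Type} [LinearOrderedCommGroupWithZero Γ₀]
  {W : Type} [AddCommGroup W] [Fintype W]

/-- a "Hopf order" of functions on the finite abelian group `W`. -/
structure IsFnOrder (v : Valuation Ω Γ₀) (H : Subring (W → Ω)) : Prop where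
  int : ∀ a ∈ H, ∀ w, v (a w) ≤ 1
  sep : ∀ w w' : W, w ≠ w' → ∃ a ∈ H, a w ≠ a w'
  comul : ∀ a ∈ H, ∃ (n : ℕ) (b c : Fin n → W → Ω),
    (∀ i, b i ∈ H) ∧ (∀ i, c i ∈ H) ∧ ∀ x y, a (x + y) = ∑ i, b i x * c i y

/-- external product of functions. -/
def tens (a b : W → Ω) : W × W → Ω := fun q => a q.1 * b q.2

/-- the pure tensors. -/
def H2 (H : Subring (W → Ω)) : Set (W × W → Ω) := {t | ∃ a ∈ H, ∃ b ∈ H, t = tens a b}

theorem val_natCast_le_one' (v : Valuation Ω Γ₀) (n : ℕ) : v (n : Ω) ≤ 1 := by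
  induction n with
  | zero => simp
  | succ n ih => rw [Nat.cast_succ]; exact v.map_add_le ih (by simp)

theorem mul_le_of_le_le_one {a b γ : Γ₀} (h1 : a ≤ γ) (h2 : b ≤ 1) : a * b ≤ γ := by
  simpa using mul_le_mul' h1 h2

theorem mul_le_of_le_one_le {a b γ : Γ₀} (h1 : a ≤ 1) (h2 : b ≤ γ) : a * b ≤ γ := by
  simpa using mul_le_mul' h1 h2

namespace IsFnOrder

variable {v : Valuation Ω Γ₀} {H : Subring (W → Ω)} (hH : IsFnOrder v H)

include hH

theorem coOrder₁ : IsCoOrder v (H : Set (W → Ω)) where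
  int0 a ha := hH.int a ha 0
  comul a ha := by
    obtain ⟨n, b, c, hb, hc, hbc⟩ := hH.comul a ha
    exact ⟨Fin n, inferInstance, b, c, hb, hc, hbc⟩

theorem coOrder₂ : IsCoOrder v (H2 H) where
  int0 t ht := by
    obtain ⟨a, ha, b, hb, rfl⟩ := ht
    simp only [tens, Prod.fst_zero, Prod.snd_zero, map_mul]
    exact mul_le_one' (hH.int a ha 0) (hH.int b hb 0)
  comul t ht := by
    obtain ⟨a, ha, a', ha', rfl⟩ := ht
    obtain ⟨n, b, c, hb, hc, hbc⟩ := hH.comul a ha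
    obtain ⟨n', b', c', hb', hc', hbc'⟩ := hH.comul a' ha'
    refine ⟨Fin n × Fin n', inferInstance, fun i => tens (b i.1) (b' i.2),
      fun i => tens (c i.1) (c' i.2), fun i => ⟨_, hb i.1, _, hb' i.2, rfl⟩,
      fun i => ⟨_, hc i.1, _, hc' i.2, rfl⟩, ?_⟩
    intro x y
    simp only [tens, Prod.fst_add, Prod.snd_add]
    rw [hbc, hbc', Finset.sum_mul_sum, Fintype.sum_prod_type]
    refine Finset.sum_congr rfl fun i _ => Finset.sum_congr rfl fun j _ => ?_
    ring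

/-- `a ∘ [k] ∈ H` for `k ≥ 1`. -/
theorem comp_nsmul_mem (k : ℕ) : ∀ a ∈ H, (fun w => a ((k + 1) • w)) ∈ H := by
  induction k with
  | zero => intro a ha; simpa using ha
  | succ k ih =>
    intro a ha
    obtain ⟨n, b, c, hb, hc, hbc⟩ := hH.comul a ha
    have h1 : (fun w => a ((k + 1 + 1) • w)) = ∑ i, (fun w => b i ((k + 1) • w)) * c i := by
      funext w
      rw [succ_nsmul, hbc, Finset.sum_apply]
      rfl
    rw [h1]
    exact H.sum_mem fun i _ => H.mul_mem (ih _ (hb i)) (hc i)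

end IsFnOrder

/-- the diagonal. -/
noncomputable def dg : AddMonoidAlgebra Ω W →+* AddMonoidAlgebra Ω (W × W) :=
  mapDomainRingHom Ω ((AddMonoidHom.id W).prod (AddMonoidHom.id W))

/-- first inclusion. -/
noncomputable def in₁ : AddMonoidAlgebra Ω W →+* AddMonoidAlgebra Ω (W × W) :=
  mapDomainRingHom Ω (AddMonoidHom.inl W W)

/-- second inclusion. -/
noncomputable def in₂ : AddMonoidAlgebra Ω W →+* AddMonoidAlgebra Ω (W × W) :=
  mapDomainRingHom Ω (AddMonoidHom.inr W W)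

theorem pr_dg (f : AddMonoidAlgebra Ω W) (a b : W → Ω) : pr (dg f) (tens a b) = pr f (a * b) := by
  unfold dg
  rw [pr_mapDomain]
  rfl

theorem pr_in_mul_in (f g : AddMonoidAlgebra Ω W) (a b : W → Ω) :
    pr (in₁ f * in₂ g) (tens a b) = pr f a * pr g b := by
  induction f using AddMonoidAlgebra.induction_linear with
  | zero => simp
  | add f₁ f₂ h₁ h₂ => rw [map_add, add_mul, pr_add, h₁, h₂, pr_add, add_mul]
  | single x r =>
    induction g using AddMonoidAlgebra.induction_linear with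
    | zero => simp
    | add g₁ g₂ h₁ h₂ => rw [map_add, mul_add, pr_add, h₁, h₂, pr_add, mul_add]
    | single y s =>
      simp only [in₁, in₂, mapDomainRingHom_apply, mapDomain_single, single_mul_single, pr_single,
        tens, AddMonoidHom.inl_apply, AddMonoidHom.inr_apply, Prod.mk_add_mk, add_zero, zero_add]
      ring

theorem pr_in₁ (f : AddMonoidAlgebra Ω W) (a b : W → Ω) :
    pr (in₁ f) (tens a b) = pr f a * b 0 := by
  have := pr_in_mul_in f 1 a b
  rwa [map_one, mul_one, pr_one] at this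

theorem pr_in₂ (f : AddMonoidAlgebra Ω W) (a b : W → Ω) :
    pr (in₂ f) (tens a b) = a 0 * pr f b := by
  have := pr_in_mul_in 1 f a b
  rwa [map_one, one_mul, pr_one] at this

section main

variable {v : Valuation Ω Γ₀} {H : Subring (W → Ω)} (hH : IsFnOrder v H)

include hH

theorem bd_dg {γ : Γ₀} {f : AddMonoidAlgebra Ω W} (hf : Bd v (H : Set (W → Ω)) γ f) :
    Bd v (H2 H) γ (dg f) := by
  rintro t ⟨a, ha, b, hb, rfl⟩
  rw [pr_dg]
  exact hf _ (H.mul_mem ha hb)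

theorem bd_in₁ {γ : Γ₀} {f : AddMonoidAlgebra Ω W} (hf : Bd v (H : Set (W → Ω)) γ f) :
    Bd v (H2 H) γ (in₁ f) := by
  rintro t ⟨a, ha, b, hb, rfl⟩
  rw [pr_in₁, map_mul]
  exact mul_le_of_le_le_one (hf a ha) (hH.int b hb 0)

theorem bd_in₂ {γ : Γ₀} {f : AddMonoidAlgebra Ω W} (hf : Bd v (H : Set (W → Ω)) γ f) :
    Bd v (H2 H) γ (in₂ f) := by
  rintro t ⟨a, ha, b, hb, rfl⟩
  rw [pr_in₂, map_mul]
  exact mul_le_of_le_one_le (hH.int a ha 0) (hf b hb)

variable {p : ℕ} (hp : p.Prime) (hW : ∀ w : W, p • w = 0) (hp0 : v (p : Ω) ≠ 0)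
  (harch : ∀ g : Γ₀, g < 1 → ∀ d : Γ₀, d ≠ 0 → ∃ n : ℕ, g ^ n ≤ d)
  {τ : Γ₀} (hτ0 : τ ≠ 0) (hτ : τ ^ (p - 1) < v (p : Ω))

include hp hW hp0 harch hτ0 hτ in
/-- **No small points.** -/
theorem eq_of_near {w w' : W} (h : ∀ a ∈ H, v (a w - a w') ≤ τ) : w = w' := by
  have U := hH.coOrder₁.uBound p hp0
  set x : AddMonoidAlgebra Ω W := single (w - w') 1 - 1 with hxdef
  have hprx : ∀ a : W → Ω, pr x a = a (w - w') - a 0 := by
    intro a
    rw [hxdef, pr_sub, pr_single, pr_one, one_mul]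
  have hx : Bd v (H : Set (W → Ω)) τ x := by
    intro a ha
    rw [hprx]
    obtain ⟨n, b, c, hb, hc, hbc⟩ := hH.comul a ha
    have e1 : a (w - w') = ∑ i, b i w * c i (-w') := by rw [sub_eq_add_neg, hbc]
    have e2 : a 0 = ∑ i, b i w' * c i (-w') := by rw [← hbc, add_neg_cancel]
    rw [e1, e2, ← Finset.sum_sub_distrib]
    refine v.map_sum_le fun i _ => ?_
    rw [← sub_mul, map_mul]
    exact mul_le_of_le_le_one (h _ (hb i)) (hH.int _ (hc i) _)
  have hxp : (1 + x) ^ p - 1 = 0 := by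
    have : 1 + x = single (w - w') 1 := by rw [hxdef]; ring
    rw [this, single_pow, hW, one_pow, ← one_def, sub_self]
  have hτ1 : τ < 1 := UBound.lt_one_of_pow_lt (val_natCast_le_one' v p) hτ
  have key : ∀ t : Γ₀, t ≠ 0 → Bd v (H : Set (W → Ω)) t x := fun t ht =>
    U.rig hp harch hp0 (val_natCast_le_one' v p) hτ ht hx (by rw [hxp]; exact U.zero _)
  by_contra hne
  obtain ⟨a, ha, hne'⟩ := hH.sep (w - w') 0 (sub_ne_zero.2 hne)
  have h0 : pr x a ≠ 0 := by rw [hprx]; exact sub_ne_zero.2 hne'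
  have hv0 : v (pr x a) ≠ 0 := (v.ne_zero_iff).2 h0
  have h1 := key (v (pr x a) * τ) (mul_ne_zero hv0 hτ0) a ha
  have h2 : v (pr x a) * τ < v (pr x a) * 1 :=
    mul_lt_mul_of_pos_left hτ1 (zero_lt_iff.2 hv0)
  rw [mul_one] at h2
  exact absurd h1 (not_le.2 h2)

/-- `g ^ k` is close to `g ∘ [k]`. -/
theorem pow_near {δ : Γ₀} {g : AddMonoidAlgebra Ω W} (hint : Bd v (H : Set (W → Ω)) 1 g)
    (hmul : ∀ a ∈ H, ∀ b ∈ H, v (pr g (a * b) - pr g a * pr g b) ≤ δ) (k : ℕ) :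
    ∀ a ∈ H, v (pr (g ^ (k + 1)) a - pr g (fun w => a ((k + 1) • w))) ≤ δ := by
  induction k with
  | zero => intro a _; simp
  | succ k ih =>
    intro a ha
    obtain ⟨n, b, c, hb, hc, hbc⟩ := hH.comul a ha
    have h1 : (fun w => a ((k + 1 + 1) • w)) = ∑ i, (fun w => b i ((k + 1) • w)) * c i := by
      funext w
      rw [succ_nsmul, hbc, Finset.sum_apply]
      rfl
    rw [h1, pr_sum_right, pow_succ, pr_mul a b c hbc, ← Finset.sum_sub_distrib]
    refine v.map_sum_le fun i _ => ?_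
    have h2 : pr (g ^ (k + 1)) (b i) * pr g (c i) - pr g ((fun w => b i ((k + 1) • w)) * c i)
        = (pr (g ^ (k + 1)) (b i) - pr g (fun w => b i ((k + 1) • w))) * pr g (c i)
          - (pr g ((fun w => b i ((k + 1) • w)) * c i)
            - pr g (fun w => b i ((k + 1) • w)) * pr g (c i)) := by ring
    rw [h2]
    refine v.map_sub_le ?_ (hmul _ (hH.comp_nsmul_mem k _ (hb i)) _ (hc i))
    rw [map_mul]
    exact mul_le_of_le_le_one (ih _ (hb i)) (hint _ (hc i))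

include hp hW in
/-- `g ^ p` is close to `1`. -/
theorem pow_p_near {δ : Γ₀} {g : AddMonoidAlgebra Ω W} (hint : Bd v (H : Set (W → Ω)) 1 g)
    (h1 : v (pr g 1 - 1) ≤ δ)
    (hmul : ∀ a ∈ H, ∀ b ∈ H, v (pr g (a * b) - pr g a * pr g b) ≤ δ) :
    Bd v (H : Set (W → Ω)) δ (g ^ p - 1) := by
  intro a ha
  have h2 := pow_near hH hint hmul (p - 1) a ha
  rw [Nat.sub_add_cancel hp.one_le] at h2
  have h3 : (fun w => a (p • w)) = a 0 • (1 : W → Ω) := by
    funext w
    simp [hW]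
  rw [h3, pr_smul_right] at h2
  rw [pr_sub, pr_one]
  have h4 : pr (g ^ p) a - a 0 = (pr (g ^ p) a - a 0 * pr g 1) + a 0 * (pr g 1 - 1) := by ring
  rw [h4]
  refine v.map_add_le h2 ?_
  rw [map_mul]
  exact mul_le_of_le_one_le (hH.int a ha 0) h1

include hp hW hp0 harch hτ0 hτ in
/-- **Improvement**: a functional which is multiplicative up to `|p| τ` is `τ`-close to a functional
which is multiplicative up to `d`, for any `d ≠ 0`. -/
theorem exists_improve {g : AddMonoidAlgebra Ω W} (hint : Bd v (H : Set (W → Ω)) 1 g)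
    (h1 : v (pr g 1 - 1) ≤ v (p : Ω) * τ)
    (hmul : ∀ a ∈ H, ∀ b ∈ H, v (pr g (a * b) - pr g a * pr g b) ≤ v (p : Ω) * τ)
    (d : Γ₀) (hd : d ≠ 0) :
    ∃ g' : AddMonoidAlgebra Ω W, Bd v (H : Set (W → Ω)) 1 g' ∧ Bd v (H : Set (W → Ω)) τ (g' - g) ∧
      ∀ a ∈ H, ∀ b ∈ H, v (pr g' (a * b) - pr g' a * pr g' b) ≤ d := by
  have U₁ := hH.coOrder₁.uBound p hp0
  have U₂ := hH.coOrder₂.uBound p hp0
  have hϖ1 := val_natCast_le_one' v p
  have hτ1 : τ < 1 := UBound.lt_one_of_pow_lt hϖ1 hτ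
  have hκ : UBound.kap (v (p : Ω)) τ p < 1 := UBound.kap_lt_one hp0 hϖ1 hτ
  have hκ0 : UBound.kap (v (p : Ω)) τ p ≠ 0 :=
    (lt_of_lt_of_le (zero_lt_iff.2 hτ0) (UBound.le_kap _ _ _)).ne'
  have hpΩ : (p : Ω) ≠ 0 := (v.ne_zero_iff).1 hp0
  have hϖτ : v (p : Ω) * τ ≤ τ := mul_le_of_le_one_le hϖ1 le_rfl
  obtain ⟨n, hn⟩ := harch _ hκ d hd
  have hy := pow_p_near hH hp hW hint h1 hmul
  obtain ⟨u, hu1, hu2⟩ := U₁.exists_root hp (exists_natCast_mul_eq hpΩ) hp0 hϖ1 hτ hy n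
  set t : Γ₀ := τ * UBound.kap (v (p : Ω)) τ p ^ n with htdef
  have ht0 : t ≠ 0 := mul_ne_zero hτ0 (pow_ne_zero _ hκ0)
  have htτ : t ≤ τ := mul_le_of_le_le_one le_rfl (pow_le_one' hκ.le n)
  have htd : t ≤ d := mul_le_of_le_one_le hτ1.le hn
  have hBu : Bd v (H : Set (W → Ω)) 1 u := by simpa using U₁.one_add hτ1.le hu1
  have hg' : Bd v (H : Set (W → Ω)) 1 (g * u) := U₁.mul_left_one hint hBu
  have hg'g : Bd v (H : Set (W → Ω)) τ (g * u - g) := by
    have h2 : g * u - g = g * (u - 1) := by ring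
    rw [h2]; exact U₁.mul_left_one hint hu1
  refine ⟨g * u, hg', hg'g, ?_⟩
  have he : Bd v (H : Set (W → Ω)) (v (p : Ω) * t) ((g * u) ^ p - 1) := by
    rw [mul_pow, mul_comm (g ^ p)]; exact hu2
  have hD : Bd v (H2 H) 1 (dg (g * u)) := bd_dg hH hg'
  have hP : Bd v (H2 H) 1 (in₁ (g * u) * in₂ (g * u)) :=
    U₂.mul_left_one (bd_in₁ hH hg') (bd_in₂ hH hg')
  have hDP : Bd v (H2 H) τ (dg (g * u) - in₁ (g * u) * in₂ (g * u)) := by
    rintro _ ⟨a, ha, b, hb, rfl⟩
    rw [pr_sub, pr_dg, pr_in_mul_in]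
    have e1 : ∀ x : W → Ω, pr (g * u) x = pr g x + pr (g * u - g) x := by
      intro x; rw [pr_sub]; ring
    have e2 : pr (g * u) (a * b) - pr (g * u) a * pr (g * u) b
        = (pr g (a * b) - pr g a * pr g b) + pr (g * u - g) (a * b)
          - pr g a * pr (g * u - g) b - pr (g * u - g) a * pr (g * u) b := by
      rw [e1 (a * b), e1 a]
      have := e1 b
      linear_combination (-pr g a) * this
    rw [e2]
    refine v.map_sub_le (v.map_sub_le (v.map_add_le ((hmul a ha b hb).trans hϖτ)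
      (hg'g _ (H.mul_mem ha hb))) ?_) ?_
    · rw [map_mul]; exact mul_le_of_le_one_le (hint a ha) (hg'g b hb)
    · rw [map_mul]; exact mul_le_of_le_le_one (hg'g a ha) (hg' b hb)
  have hDp : Bd v (H2 H) (v (p : Ω) * t) (dg (g * u) ^ p - 1) := by
    have h2 : dg (g * u) ^ p - 1 = dg ((g * u) ^ p - 1) := by
      rw [map_sub, map_pow, map_one]
    rw [h2]; exact bd_dg hH he
  have hPp : Bd v (H2 H) (v (p : Ω) * t) ((in₁ (g * u) * in₂ (g * u)) ^ p - 1) := by
    have h2 : (in₁ (g * u) * in₂ (g * u)) ^ p - 1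
        = in₁ ((g * u) ^ p - 1) * in₂ ((g * u) ^ p) + in₂ ((g * u) ^ p - 1) := by
      rw [map_sub, map_sub, map_pow, map_pow, map_one, map_one, mul_pow]; ring
    rw [h2]
    exact U₂.add _ _ _ (U₂.mul_right_one (bd_in₁ hH he) (bd_in₂ hH (U₁.pow_unit hg' p)))
      (bd_in₂ hH he)
  have key := U₂.rig_pair hp harch hp0 hϖ1 hτ ht0 htτ hD hP hDP hDp hPp
  intro a ha b hb
  have h3 := key _ ⟨a, ha, b, hb, rfl⟩
  rw [pr_sub, pr_dg, pr_in_mul_in] at h3
  exact h3.trans htd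

omit hH in
/-- one step of the product formula. -/
theorem good_step {g : AddMonoidAlgebra Ω W} {t : Γ₀} (ht1 : t ≤ 1)
    (hint : Bd v (H : Set (W → Ω)) 1 g)
    (hmul : ∀ a ∈ H, ∀ b ∈ H, v (pr g (a * b) - pr g a * pr g b) ≤ t)
    {φ : W → Ω} (hφ1 : v (pr g φ) ≤ 1)
    (hφ : ∀ b ∈ H, v (pr g (φ * b) - pr g φ * pr g b) ≤ t)
    {b : W → Ω} (hb : b ∈ H) {r : Ω} (hr : v r ≤ 1) :
    v (pr g (φ * (b - r • (1 : W → Ω)))) ≤ 1 ∧
    (∀ b' ∈ H, v (pr g (φ * (b - r • (1 : W → Ω)) * b')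
      - pr g (φ * (b - r • (1 : W → Ω))) * pr g b') ≤ t) ∧
    v (pr g (φ * (b - r • (1 : W → Ω))) - pr g φ * (pr g b - r)) ≤ t := by
  have e0 : pr g (φ * (b - r • (1 : W → Ω))) = pr g (φ * b) - r * pr g φ := by
    have : φ * (b - r • (1 : W → Ω)) = φ * b - r • φ := by
      funext w; simp [mul_sub]; ring
    rw [this, pr_sub_right, pr_smul_right]
  have e3 : pr g (φ * (b - r • (1 : W → Ω))) - pr g φ * (pr g b - r)
      = pr g (φ * b) - pr g φ * pr g b := by rw [e0]; ring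
  have h3 : v (pr g (φ * (b - r • (1 : W → Ω))) - pr g φ * (pr g b - r)) ≤ t := by
    rw [e3]; exact hφ b hb
  refine ⟨?_, ?_, h3⟩
  · have e1 : pr g (φ * (b - r • (1 : W → Ω)))
        = (pr g (φ * (b - r • (1 : W → Ω))) - pr g φ * (pr g b - r))
          + pr g φ * (pr g b - r) := by ring
    rw [e1]
    refine v.map_add_le (h3.trans ht1) ?_
    rw [map_mul]
    exact mul_le_one' hφ1 (v.map_sub_le (hint b hb) hr)
  · intro b' hb'
    have e4 : pr g (φ * (b - r • (1 : W → Ω)) * b') = pr g (φ * (b * b')) - r * pr g (φ * b') := by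
      have : φ * (b - r • (1 : W → Ω)) * b' = φ * (b * b') - r • (φ * b') := by
        funext w; simp [mul_sub, sub_mul]; ring
      rw [this, pr_sub_right, pr_smul_right]
    have e5 : pr g (φ * (b - r • (1 : W → Ω)) * b')
        - pr g (φ * (b - r • (1 : W → Ω))) * pr g b'
        = (pr g (φ * (b * b')) - pr g φ * pr g (b * b'))
          + pr g φ * (pr g (b * b') - pr g b * pr g b')
          - (pr g (φ * b) - pr g φ * pr g b) * pr g b'
          - r * (pr g (φ * b') - pr g φ * pr g b') := by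
      rw [e4, e0]; ring
    rw [e5]
    refine v.map_sub_le (v.map_sub_le (v.map_add_le (hφ _ (H.mul_mem hb hb')) ?_) ?_) ?_
    · rw [map_mul]; exact mul_le_of_le_one_le hφ1 (hmul b hb b' hb')
    · rw [map_mul]; exact mul_le_of_le_le_one (hφ b hb) (hint b' hb')
    · rw [map_mul]; exact mul_le_of_le_one_le hr (hφ b' hb')

/-- a functional which is multiplicative up to `t < τ ^ |W|` is `τ`-close to a point. -/
theorem exists_point_of_mult {g : AddMonoidAlgebra Ω W} {t σ : Γ₀} (ht1 : t ≤ 1)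
    (hint : Bd v (H : Set (W → Ω)) 1 g)
    (hmul : ∀ a ∈ H, ∀ b ∈ H, v (pr g (a * b) - pr g a * pr g b) ≤ t)
    (h1 : v (pr g 1) = 1) (htσ : t < σ ^ Fintype.card W) :
    ∃ w, ∀ a ∈ H, v (pr g a - a w) ≤ σ := by
  classical
  by_contra hcon
  push Not at hcon
  choose a ha hlt using hcon
  have key : ∀ s : Finset W,
      v (pr g (∏ w ∈ s, (a w - a w w • (1 : W → Ω)))) ≤ 1 ∧
      (∀ b' ∈ H, v (pr g ((∏ w ∈ s, (a w - a w w • (1 : W → Ω))) * b')
        - pr g (∏ w ∈ s, (a w - a w w • (1 : W → Ω))) * pr g b') ≤ t) ∧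
      v (pr g (∏ w ∈ s, (a w - a w w • (1 : W → Ω)))
        - pr g 1 * ∏ w ∈ s, (pr g (a w) - a w w)) ≤ t := by
    intro s
    induction s using Finset.induction_on with
    | empty =>
      refine ⟨by simpa using h1.le, fun b' hb' => ?_, by simp⟩
      simpa using hmul 1 H.one_mem b' hb'
    | insert x s hx ih =>
      obtain ⟨i1, i2, i3⟩ := ih
      obtain ⟨j1, j2, j3⟩ := good_step ht1 hint hmul i1 i2 (ha x) (hH.int _ (ha x) x)
      rw [Finset.prod_insert hx, Finset.prod_insert hx, mul_comm (a x - a x x • (1 : W → Ω))]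
      refine ⟨j1, j2, ?_⟩
      have e : pr g ((∏ w ∈ s, (a w - a w w • (1 : W → Ω))) * (a x - a x x • (1 : W → Ω)))
          - pr g 1 * ((pr g (a x) - a x x) * ∏ w ∈ s, (pr g (a w) - a w w))
          = (pr g ((∏ w ∈ s, (a w - a w w • (1 : W → Ω))) * (a x - a x x • (1 : W → Ω)))
              - pr g (∏ w ∈ s, (a w - a w w • (1 : W → Ω))) * (pr g (a x) - a x x))
            + (pr g (∏ w ∈ s, (a w - a w w • (1 : W → Ω)))
              - pr g 1 * ∏ w ∈ s, (pr g (a w) - a w w)) * (pr g (a x) - a x x) := by ring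
      rw [e]
      refine v.map_add_le j3 ?_
      rw [map_mul]
      exact mul_le_of_le_le_one i3 (v.map_sub_le (hint _ (ha x)) (hH.int _ (ha x) x))
  obtain ⟨-, -, k3⟩ := key Finset.univ
  have hz : (∏ w, (a w - a w w • (1 : W → Ω))) = 0 := by
    funext x
    rw [Finset.prod_apply]
    exact Finset.prod_eq_zero (Finset.mem_univ x) (by simp)
  rw [hz, pr_zero_right, zero_sub, Valuation.map_neg, map_mul, h1, one_mul, map_prod] at k3
  have h5 : σ ^ Fintype.card W ≤ ∏ w, v (pr g (a w) - a w w) := by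
    rw [← Finset.card_univ, ← Finset.prod_const]
    exact Finset.prod_le_prod' fun w _ => (hlt w).le
  exact absurd (lt_of_lt_of_le htσ h5) (not_lt.2 k3)

include hp hW hp0 harch hτ0 hτ in
/-- **Fontaine's lifting lemma**, group algebra version. -/
theorem exists_near_point_alg {g : AddMonoidAlgebra Ω W} (hint : Bd v (H : Set (W → Ω)) 1 g)
    (h1 : v (pr g 1 - 1) ≤ v (p : Ω) * τ)
    (hmul : ∀ a ∈ H, ∀ b ∈ H, v (pr g (a * b) - pr g a * pr g b) ≤ v (p : Ω) * τ) :
    ∃ w, ∀ a ∈ H, v (pr g a - a w) ≤ τ := by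
  have hϖ1 := val_natCast_le_one' v p
  have hτ1 : τ < 1 := UBound.lt_one_of_pow_lt hϖ1 hτ
  have hϖτ : v (p : Ω) * τ ≤ τ := mul_le_of_le_one_le hϖ1 le_rfl
  obtain ⟨g', hg'1, hg'g, hg'm⟩ := exists_improve hH hp hW hp0 harch hτ0 hτ hint h1 hmul
    (τ ^ (Fintype.card W + 1)) (pow_ne_zero _ hτ0)
  have hlt : τ ^ (Fintype.card W + 1) < τ ^ Fintype.card W := by
    rw [pow_succ]
    have h0 : 0 < τ ^ Fintype.card W := zero_lt_iff.2 (pow_ne_zero _ hτ0)
    calc τ ^ Fintype.card W * τ < τ ^ Fintype.card W * 1 := mul_lt_mul_of_pos_left hτ1 h0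
      _ = τ ^ Fintype.card W := mul_one _
  have hone : v (pr g' 1) = 1 := by
    have e : pr g' 1 = 1 + ((pr g 1 - 1) + pr (g' - g) 1) := by rw [pr_sub]; ring
    rw [e]
    exact Valuation.map_one_add_of_lt v
      (lt_of_le_of_lt (v.map_add_le (h1.trans hϖτ) (hg'g 1 H.one_mem)) hτ1)
  obtain ⟨w, hw⟩ := exists_point_of_mult hH (pow_le_one' hτ1.le _) hg'1 hg'm hone hlt
  refine ⟨w, fun a ha => ?_⟩
  have e : pr g a - a w = (pr g' a - a w) - pr (g' - g) a := by rw [pr_sub]; ring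
  rw [e]
  exact v.map_sub_le (hw a ha) (hg'g a ha)

include hp hW hp0 harch hτ0 hτ in
/-- **Fontaine's lifting lemma**: a functional `a ↦ ∑ w, c w * a w` on `H` which is integral and
multiplicative up to `|p| τ` is `τ`-close to the evaluation at a point of `W`. -/
theorem exists_near_point (c : W → Ω) (hint : ∀ a ∈ H, v (∑ x, c x * a x) ≤ 1)
    (h1 : v (∑ x, c x - 1) ≤ v (p : Ω) * τ)
    (hmul : ∀ a ∈ H, ∀ b ∈ H,
      v (∑ x, c x * (a x * b x) - (∑ x, c x * a x) * ∑ x, c x * b x) ≤ v (p : Ω) * τ) :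
    ∃ w, ∀ a ∈ H, v (∑ x, c x * a x - a w) ≤ τ := by
  have hpr : ∀ a : W → Ω, pr (∑ x, single x (c x) : AddMonoidAlgebra Ω W) a = ∑ x, c x * a x := by
    intro a
    rw [pr_sum_left]
    exact Finset.sum_congr rfl fun x _ => pr_single _ _ _
  have := exists_near_point_alg hH hp hW hp0 harch hτ0 hτ
    (g := (∑ x, single x (c x) : AddMonoidAlgebra Ω W))
    (fun a ha => by rw [hpr]; exact hint a ha)
    (by rw [hpr]; simpa using h1)
    (fun a ha b hb => by rw [hpr, hpr, hpr]; exact hmul a ha b hb)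
  obtain ⟨w, hw⟩ := this
  exact ⟨w, fun a ha => by rw [← hpr]; exact hw a ha⟩

end main

end Fermat.Agent.S56.Font
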