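import Mathlib

/-!
# S56 / Font / KL : the kernel lemma (pure algebra)

`R → S` commutative rings, `M(Y) ∈ R[Y]` monic, `P(Y,X) ∈ R[Y][X]` monic in `X`.  If `(y,x)` is a common
zero of `M` and `P` such that the monomials `y^i x^j` (`i < deg M`, `j < deg_X P`) are `R`-linearly
independent, then the kernel of the evaluation at `(y,x)` is generated by `M` and `P`.  Hence for every
zero `(y',x')` of `P` and every `F` with `F(y,x) = 0`, `F(y',x')` is a multiple of `M(y')`.
-/

set_option autoImplicit false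
set_option linter.unusedSectionVars false

namespace Fermat.Agent.S56.Font

open Polynomial

variable {R S : Type*} [CommRing R] [Nontrivial R] [CommRing S] (φ : R →+* S)

/-- evaluation of `F(Y,X) ∈ R[Y][X]` at `(y,x)`. -/
noncomputable def ev2 (y x : S) : R[X][X] →+* S := eval₂RingHom (eval₂RingHom φ y) x

lemma ev2_C (y x : S) (G : R[X]) : ev2 φ y x (C G) = eval₂ φ y G := by
  simp [ev2]

lemma ev2_X (y x : S) : ev2 φ y x (X : R[X][X]) = x := by
  simp [ev2]

lemma ev2_map_C (y x : S) (G : R[X]) : ev2 φ y x (G.map C) = eval₂ φ x G := by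
  simp only [ev2, coe_eval₂RingHom, eval₂_map]
  congr 1
  ext r
  simp

lemma ev2_eq_sum (y x : S) (F : R[X][X]) :
    ev2 φ y x F = ∑ j ∈ Finset.range (F.natDegree + 1), eval₂ φ y (F.coeff j) * x ^ j := by
  simp only [ev2, coe_eval₂RingHom]
  rw [eval₂_eq_sum_range]
  rfl

lemma ev2_eq_eval_map (y x : S) (F : R[X][X]) :
    ev2 φ y x F = (F.map (eval₂RingHom φ y)).eval x := by
  simp only [ev2, coe_eval₂RingHom]
  rw [eval_map]

/-- apply `f` to all coefficients. -/
noncomputable def cw (f : R[X] → R[X]) (F : R[X][X]) : R[X][X] :=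
  ∑ j ∈ Finset.range (F.natDegree + 1), monomial j (f (F.coeff j))

lemma coeff_cw {f : R[X] → R[X]} (hf : f 0 = 0) (F : R[X][X]) (j : ℕ) :
    (cw f F).coeff j = f (F.coeff j) := by
  classical
  rw [cw, finsetSum_coeff]
  simp only [coeff_monomial]
  rw [Finset.sum_ite_eq' (Finset.range (F.natDegree + 1)) j]
  split_ifs with hj
  · rfl
  · rw [Finset.mem_range, not_lt] at hj
    rw [coeff_eq_zero_of_natDegree_lt (by omega), hf]

/-- coefficientwise division by a monic polynomial. -/
lemma exists_coeffwise_div {M : R[X]} (hM : M.Monic) (F : R[X][X]) :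
    ∃ q r : R[X][X], F = C M * q + r ∧ r.degree ≤ F.degree ∧ ∀ j, (r.coeff j).degree < M.degree := by
  refine ⟨cw (· /ₘ M) F, cw (· %ₘ M) F, ?_, ?_, fun j => ?_⟩
  · ext1 j
    rw [coeff_add, coeff_C_mul, coeff_cw (zero_divByMonic M), coeff_cw (zero_modByMonic M), add_comm]
    exact (modByMonic_add_div (F.coeff j) M).symm
  · rw [degree_le_iff_coeff_zero]
    intro m hm
    rw [coeff_cw (zero_modByMonic M), coeff_eq_zero_of_degree_lt hm, zero_modByMonic]
  · rw [coeff_cw (zero_modByMonic M)]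
    exact degree_modByMonic_lt _ hM

/-- **the kernel lemma**. -/
theorem kernel_lemma {y x y' x' : S} {M : R[X]} (hM : M.Monic) {P : R[X][X]} (hP : P.Monic)
    (hMy : eval₂ φ y M = 0) (hPx : ev2 φ y x P = 0) (hPx' : ev2 φ y' x' P = 0)
    (hind : ∀ F : R[X][X], F.degree < P.degree → (∀ j, (F.coeff j).degree < M.degree) →
      ev2 φ y x F = 0 → F = 0)
    (F : R[X][X]) (hF : ev2 φ y x F = 0) :
    ∃ q : R[X][X], ev2 φ y' x' F = eval₂ φ y' M * ev2 φ y' x' q := by
  have hdec : F %ₘ P + P * (F /ₘ P) = F := modByMonic_add_div F P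
  obtain ⟨q, r, hqr, hdeg, hcoef⟩ := exists_coeffwise_div hM (F %ₘ P)
  have h1 : ev2 φ y x (F %ₘ P) = 0 := by
    have := congrArg (ev2 φ y x) hdec
    rw [map_add, map_mul, hPx, zero_mul, add_zero, hF] at this
    exact this
  have h2 : ev2 φ y x r = 0 := by
    have := congrArg (ev2 φ y x) hqr
    rw [map_add, map_mul, ev2_C, hMy, zero_mul, zero_add, h1] at this
    exact this.symm
  have h3 : r = 0 := hind r (lt_of_le_of_lt hdeg (degree_modByMonic_lt _ hP)) hcoef h2
  refine ⟨q, ?_⟩
  have := congrArg (ev2 φ y' x') hdec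
  rw [map_add, map_mul, hPx', zero_mul, add_zero, hqr, h3, add_zero, map_mul, ev2_C] at this
  exact this.symm

end Fermat.Agent.S56.Font
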