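import Fermat.Agent.S56.Font.LT.Sub

/-!
# S56 / Font / PM : Fontaine's property (P_m)

`IsFL v H τ κ` = the two conclusions of Fontaine's lifting lemma [FL] (helper57, `Font/FL.lean`) for a set
`H` of `C`-valued functions on a finite set `W`:
* `near` : two points which are `τ`-close on all of `H` are equal;
* `lift` : a functional `a ↦ ∑ w, c w * a w` which is integral, unital and multiplicative mod `κ` on `H`
  is `τ`-close to a point.

**[PM]** `θ` a uniformiser of a finite extension `F = K₀(θ)` of `K₀` over which all points of `W` are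
rational, `β` with `v β = v θ` and `v (P(β)) ≤ κ`, `P` the minimal polynomial of `θ`.  Then all points of
`W` are rational over `K₀(β)`.

Proof.  `η = eta h θ β : F → K₀(β)` (`LT/Eis.lean`) is additive, unital, preserves valuations, is
multiplicative mod `κ` on `O_F` (T5) and `η z = ∑_{z' ∈ orbit θ} lag z' * (sec z' • z)` (T7).  For `x : W`
put `c_x w = ∑_{z' : sec z' • x = w} lag z'`; then `∑ w, c_x w * a w = η (a x)` for equivariant `a`.  `lift`
gives `Φ x` with `v (η (a x) - a (Φ x)) ≤ τ`.  `Φ` is injective (`near` + `val_eta`), hence bijective, and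
`Φ x` is fixed by `Stab β` (`near` + `eta_fixBy`).
-/

set_option autoImplicit false

namespace Fermat.Agent.S56.Font

open Polynomial MulAction

variable {Γ : Type*} [Group Γ] {C : Type*} [Field C] [MulSemiringAction Γ C]
  {Γ₀ : Type*} [LinearOrderedCommGroupWithZero Γ₀] {v : Valuation C Γ₀} {ϖ : C}

/-- the conclusions of Fontaine's lifting lemma. -/
structure IsFL {W : Type*} [Fintype W] (v : Valuation C Γ₀) (H : Set (W → C)) (τ κ : Γ₀) : Prop where
  int : ∀ a ∈ H, ∀ w, v (a w) ≤ 1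
  near : ∀ w w' : W, (∀ a ∈ H, v (a w - a w') ≤ τ) → w = w'
  lift : ∀ c : W → C, (∀ a ∈ H, v (∑ w, c w * a w) ≤ 1) → v (∑ w, c w - 1) ≤ κ →
    (∀ a ∈ H, ∀ b ∈ H,
      v (∑ w, c w * (a w * b w) - (∑ w, c w * a w) * ∑ w, c w * b w) ≤ κ) →
    ∃ w, ∀ a ∈ H, v (∑ w', c w' * a w' - a w) ≤ τ

/-- the kernel of the action of `Γ` on `W`. -/
def kerAct (Γ : Type*) [Group Γ] (W : Type*) [MulAction Γ W] : Subgroup Γ :=
  (MulAction.toPermHom Γ W).ker

lemma mem_kerAct {W : Type*} [MulAction Γ W] {g : Γ} : g ∈ kerAct Γ W ↔ ∀ w : W, g • w = w := by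
  rw [kerAct, MonoidHom.mem_ker, Equiv.ext_iff]
  rfl

variable {W : Type*} [Fintype W] [MulAction Γ W] {H : Set (W → C)} {τ κ : Γ₀}

/-- the field of definition of the points is a finite extension of `K₀`. -/
theorem isOpenIn_kerAct (hH : IsFL v H τ κ)
    (heq : ∀ a ∈ H, ∀ (g : Γ) (w : W), a (g • w) = g • a w) : IsOpenIn C (kerAct Γ W) := by
  classical
  have hsep : ∀ p : W × W, ∃ t : C, p.1 ≠ p.2 → ∃ a ∈ H, a p.1 = t ∧ a p.1 ≠ a p.2 := by
    intro p
    by_cases hp : p.1 = p.2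
    · exact ⟨0, fun h => absurd hp h⟩
    · have h1 : ¬ ∀ a ∈ H, v (a p.1 - a p.2) ≤ τ := fun h => hp (hH.near _ _ h)
      push Not at h1
      obtain ⟨a, ha, hlt⟩ := h1
      refine ⟨a p.1, fun _ => ⟨a, ha, rfl, fun he => ?_⟩⟩
      rw [he, sub_self, map_zero] at hlt
      exact not_lt_zero hlt
  choose f hf using hsep
  refine ⟨Finset.univ.image f, fun g hg => mem_kerAct.mpr fun w => ?_⟩
  by_contra hne
  obtain ⟨a, ha, h1, h2⟩ := hf (w, g • w) (fun h => hne h.symm)
  apply h2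
  have h3 := hg (f (w, g • w)) (Finset.mem_image_of_mem f (Finset.mem_univ _))
  simp only at h1
  rw [← h1] at h3
  show a w = a (g • w)
  rw [heq a ha, h3]

lemma eta_sub (h : IsSH Γ v ϖ) (π β x y : C) : eta h π β (x - y) = eta h π β x - eta h π β y := by
  have := eta_add h π β (x - y) y
  rw [sub_add_cancel] at this
  rw [this, add_sub_cancel_right]

open scoped Classical in
/-- the coefficients of the functional `a ↦ η (a x)`. -/
noncomputable def cPM (h : IsSH Γ v ϖ) (θ β : C) (x w : W) : C :=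
  ∑ z ∈ (orbF h θ).filter (fun z => sec Γ θ z • x = w), lag h θ β z

lemma sum_cPM_mul (h : IsSH Γ v ϖ) (θ β : C) (x : W) (F : W → C) :
    ∑ w, cPM h θ β x w * F w = ∑ z ∈ orbF h θ, lag h θ β z * F (sec Γ θ z • x) := by
  classical
  simp only [cPM, Finset.sum_mul]
  rw [← Finset.sum_fiberwise (orbF h θ) (fun z => sec Γ θ z • x)]
  refine Finset.sum_congr rfl fun w _ => Finset.sum_congr rfl fun z hz => ?_
  rw [(Finset.mem_filter.mp hz).2]

lemma sum_cPM_mul_eq_eta (h : IsSH Γ v ϖ) (θ β : C) (x : W) {F : W → C}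
    (hF : ∀ (g : Γ) (w : W), F (g • w) = g • F w) :
    ∑ w, cPM h θ β x w * F w = eta h θ β (F x) := by
  rw [sum_cPM_mul, eta_eq_sum]
  exact Finset.sum_congr rfl fun z _ => by rw [hF]

/-- **[PM]** -/
theorem stabilizer_le_kerAct (h : IsSH Γ v ϖ) (hH : IsFL v H τ κ)
    (heq : ∀ a ∈ H, ∀ (g : Γ) (w : W), a (g • w) = g • a w)
    {θ β : C} {n : ℕ} (hθ : IsTot Γ v ϖ θ n) (hfix : stabilizer Γ θ ≤ kerAct Γ W)
    (hβ : v β ^ n = v ϖ) (hκ : v ((mp h θ).eval β) ≤ κ) :
    stabilizer Γ β ≤ kerAct Γ W := by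
  have hrat : ∀ a ∈ H, ∀ x : W, FixBy (stabilizer Γ θ) (a x) := by
    intro a ha x s hs
    rw [← heq a ha, mem_kerAct.mp (hfix hs)]
  have hβ1 : v β ≤ 1 := (val_lt_one_of_pow h hβ).le
  have hlift : ∀ x : W, ∃ w, ∀ a ∈ H, v (eta h θ β (a x) - a w) ≤ τ := by
    intro x
    have c1 : ∀ a ∈ H, v (∑ w, cPM h θ β x w * a w) ≤ 1 := by
      intro a ha
      rw [sum_cPM_mul_eq_eta h θ β x (heq a ha), val_eta h hθ hβ (hrat a ha x)]
      exact hH.int a ha x
    have c2 : v (∑ w, cPM h θ β x w - 1) ≤ κ := by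
      have h1 : ∑ w, cPM h θ β x w = 1 := by
        have := sum_cPM_mul_eq_eta h θ β x (F := fun _ => (1 : C)) (fun g _ => (smul_one g).symm)
        simp only [mul_one] at this
        rw [this, eta_one]
      rw [h1, sub_self, map_zero]
      exact zero_le
    have c3 : ∀ a ∈ H, ∀ b ∈ H, v (∑ w, cPM h θ β x w * (a w * b w) -
        (∑ w, cPM h θ β x w * a w) * ∑ w, cPM h θ β x w * b w) ≤ κ := by
      intro a ha b hb
      rw [sum_cPM_mul_eq_eta h θ β x (heq a ha), sum_cPM_mul_eq_eta h θ β x (heq b hb),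
        sum_cPM_mul_eq_eta h θ β x (F := fun w => a w * b w)
          (fun g w => by rw [heq a ha, heq b hb, smul_mul'])]
      exact (val_eta_mul_sub h hθ hβ1 (hrat a ha x) (hrat b hb x) (hH.int a ha x)
        (hH.int b hb x)).trans hκ
    obtain ⟨w, hw⟩ := hH.lift (cPM h θ β x) c1 c2 c3
    refine ⟨w, fun a ha => ?_⟩
    rw [← sum_cPM_mul_eq_eta h θ β x (heq a ha)]
    exact hw a ha
  choose Φ hΦ using hlift
  have hinj : Function.Injective Φ := by
    intro x x' hxx
    apply hH.near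
    intro a ha
    rw [← val_eta h hθ hβ ((hrat a ha x).sub (hrat a ha x')), eta_sub]
    have e : eta h θ β (a x) - eta h θ β (a x') =
        (eta h θ β (a x) - a (Φ x)) - (eta h θ β (a x') - a (Φ x')) := by
      rw [hxx]; ring
    rw [e]
    exact (v.map_sub _ _).trans (max_le (hΦ x a ha) (hΦ x' a ha))
  have hsurj : Function.Surjective Φ := Finite.injective_iff_surjective.mp hinj
  intro g hg
  rw [mem_kerAct]
  intro w
  obtain ⟨x, rfl⟩ := hsurj w
  apply hH.near
  intro a ha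
  have h1 : a (g • Φ x) = g • a (Φ x) := heq a ha g _
  have h2 : g • eta h θ β (a x) = eta h θ β (a x) := eta_fixBy h β (hrat a ha x) g hg
  have e : a (g • Φ x) - a (Φ x) =
      (eta h θ β (a x) - a (Φ x)) - g • (eta h θ β (a x) - a (Φ x)) := by
    rw [smul_sub, h2, h1]; ring
  rw [e]
  exact (v.map_sub _ _).trans (max_le (hΦ x a ha) ((h.inv g _).le.trans (hΦ x a ha)))

end Fermat.Agent.S56.Font
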