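import Fermat.Agent.S56.Font.Pert
import Fermat.Agent.S56.Font.PM
import Fermat.Agent.S56.Font.Comp
import Fermat.Agent.S56.Font.Root.NonPow
import Fermat.Agent.S56.Font.Root.Res
import Fermat.Agent.S56.Font.Root.Pigeon

/-!
# S56 / Font / Kum : the sharp ramification bound in Kummer form (assembly of Theorems A and B)

`(Γ, C, v, p)` strictly henselian, `C` algebraically closed, `π^e = p`, `L = K₀(π)`, `W` a finite `Γ`-set with
a set `H` of equivariant functions satisfying the conclusions `IsFL` of Fontaine's lifting lemma,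
`N'' = Stab π ⊓ ker(Γ → Perm W)` (so `C^{N''} = L(W)`).

* Theorem B `exists_root_pert`: if `w = Lw(π)` (`Lw ∈ O_{K₀}[Y]`) has a `p`-th root in `L(W)`, `v w = v π ^ a`,
  `(p-1) t > e`, `c ∈ O_{K₀}`, then `Lw(π(1 + c π^(t+a)))` has a `p`-th root in `L(W)`.
* Theorem A `kumD_aux`: if moreover `deg Lw < e` then no coefficient `w_i`, `p ∤ i`, `i + 3 ≤ e`, is a unit.
Both are proved here from the leaves (`KL`, `Pert`, `PM`, `Comp`, `Root/*`).
-/

set_option autoImplicit false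

namespace Fermat.Agent.S56.Font

open Polynomial MulAction

variable {Γ : Type*} [Group Γ] {C : Type*} [Field C] [MulSemiringAction Γ C]
  {Γ₀ : Type*} [LinearOrderedCommGroupWithZero Γ₀] {v : Valuation C Γ₀}


variable {p : ℕ} {W : Type*} [Fintype W] [MulAction Γ W] {H : Set (W → C)}

/-- **Theorem B**: the perturbed element `w(π(1 + c π^s))` still has a `p`-th root in `L(W)`. -/
theorem exists_root_pert [IsAlgClosed C] (hp : p.Prime) (h : IsSH Γ v (p : C)) {π : C} {e : ℕ}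
    (hπe : π ^ e = (p : C))
    (hFL : ∀ τ : Γ₀, τ ≠ 0 → τ ^ (p - 1) < v (p : C) → IsFL v H τ (v (p : C) * τ))
    (heq : ∀ a ∈ H, ∀ (g : Γ) (w : W), a (g • w) = g • a w)
    {Lw : C[X]} (hLfix : FixPoly Γ Lw) (hLint : ∀ i, v (Lw.coeff i) ≤ 1)
    {α : C} (hα : α ^ p = Lw.eval π) (hαfix : FixBy (stabilizer Γ π ⊓ kerAct Γ W) α)
    {t a : ℕ} (ht : e < (p - 1) * t) (ha : v (Lw.eval π) = v π ^ a)
    {c : C} (hc : Fix0 Γ c) (hc1 : v c ≤ 1) :
    ∃ ρ : C, FixBy (stabilizer Γ π ⊓ kerAct Γ W) ρ ∧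
      ρ ^ p = Lw.eval (π * (1 + c * π ^ (t + a))) := by
  classical
  have hπ := isTot_of_pow_eq h hπe
  have hγ0 : 0 < v π := val_pos_of_pow h hπ.pow
  have hγ1 : v π < 1 := val_lt_one_of_pow h hπ.pow
  have hγe : v π ^ e = v (p : C) := hπ.pow
  have hp1 : 1 ≤ p - 1 := by have := hp.two_le; omega
  have ht1 : 1 ≤ t := by
    rcases Nat.eq_zero_or_pos t with rfl | h0
    · simp at ht
    · exact h0
  have hτ' : (v π ^ t) ^ (p - 1) < v (p : C) := by
    rw [← pow_mul, ← hγe]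
    exact pow_lt_pow_right_of_lt_one₀ hγ0 hγ1 (by rw [mul_comm]; exact ht)
  have hτ : (v π ^ (t + a)) ^ (p - 1) < v (p : C) := by
    rw [← pow_mul, ← hγe]
    refine pow_lt_pow_right_of_lt_one₀ hγ0 hγ1 (lt_of_lt_of_le ht ?_)
    rw [mul_comm]
    exact Nat.mul_le_mul_right _ (Nat.le_add_right _ _)
  have hH := hFL _ (pow_ne_zero _ hγ0.ne') hτ
  have hopen : IsOpenIn C (stabilizer Γ π ⊓ kerAct Γ W) :=
    (isOpenIn_stabilizer π).inf (isOpenIn_kerAct hH heq)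
  obtain ⟨hN0, θ, hθ, hstab⟩ := exists_isTot_of_isOpenIn h hopen
  set π' := π * (1 + c * π ^ (t + a)) with hπ'
  have hx1 : v (c * π ^ (t + a)) ≤ v π ^ (t + a) := by
    rw [map_mul, map_pow]
    exact mul_le_of_le_one_left zero_le hc1
  have hx : v (c * π ^ (t + a)) < 1 :=
    lt_of_le_of_lt hx1 (pow_lt_one₀ zero_le hγ1 (by omega))
  have hπ'v : v π' = v π := by rw [hπ', map_mul, v.map_one_add_of_lt hx, mul_one]
  have hπfix : FixBy (stabilizer Γ π) π := fixBy_stabilizer π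
  have hπ'fix : FixBy (stabilizer Γ π) π' :=
    hπfix.mul ((Fix0.one.fixBy _).add ((hc.fixBy _).mul (hπfix.pow _)))
  have hle : stabilizer Γ θ ≤ stabilizer Γ π := hstab ▸ inf_le_left
  obtain ⟨β, hβ, hidx, hKL⟩ := exists_pert h hπ hπe hθ hle hπ'fix hπ'v
  have hκ : v (π' ^ e - (p : C)) ≤ v (p : C) * v π ^ (t + a) := by
    have : π' ^ e - (p : C) = (p : C) * ((1 + c * π ^ (t + a)) ^ e - 1) := by
      rw [hπ', mul_pow, hπe]; ring
    rw [this, map_mul]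
    exact mul_le_mul_right ((val_one_add_pow_sub_one_le hx.le e).trans hx1) _
  -- (a) `P(β)` is small
  have hPβ : v ((mp h θ).eval β) ≤ v (p : C) * v π ^ (t + a) := by
    have := hKL ((toO0 (mp h θ) (coeff_mp_mem_O0 h hθ)).map Polynomial.C)
      (by rw [ev2_map_C, eval₂_toO0, eval_mp_self])
    rw [ev2_map_C, eval₂_toO0] at this
    exact this.trans hκ
  -- [PM]
  have hPM : stabilizer Γ β ≤ kerAct Γ W :=
    stabilizer_le_kerAct h hH heq hθ (hstab ▸ inf_le_right) hβ hPβ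
  have hNE : stabilizer Γ β ⊓ stabilizer Γ π = stabilizer Γ θ := by
    refine eq_of_le_of_index_eq ?_ (by rw [hidx]; exact hN0) (by rw [hidx, hθ.index])
    rw [hstab]
    exact le_inf inf_le_right (inf_le_left.trans hPM)
  have hβfix : FixBy (stabilizer Γ θ) β := by
    rw [← hNE]
    exact (fixBy_stabilizer β).mono inf_le_left
  -- (b)
  have hαfix' : FixBy (stabilizer Γ θ) α := hstab ▸ hαfix
  have hw1 : v (Lw.eval π) ≤ 1 := by rw [ha]; exact pow_le_one₀ zero_le hγ1.le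
  have hα1 : v α ≤ 1 := by
    by_contra hgt
    rw [not_le] at hgt
    have : 1 < v α ^ p := one_lt_pow₀ hgt hp.ne_zero
    rw [← map_pow, hα] at this
    exact absurd hw1 (not_le.mpr this)
  set y := eta h θ β α with hy
  have hyfix : FixBy (stabilizer Γ θ) y := (fixPoly_rep h hαfix').eval_fixBy hβfix
  have hyv : v y = v α := val_eta h hθ hβ hαfix'
  have hrepmem : ∀ i, (rep h θ α).coeff i ∈ O0 Γ v := fun i =>
    ⟨fixPoly_rep h hαfix' i, hθ.val_coeff_rep_le_one h hαfix' hα1 i⟩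
  have hLmem : ∀ i, Lw.coeff i ∈ O0 Γ v := fun i => ⟨hLfix i, hLint i⟩
  have hb : v (y ^ p - Lw.eval π') ≤ v (p : C) * v π ^ (t + a) := by
    have := hKL (((toO0 (rep h θ α) hrepmem).map Polynomial.C) ^ p - Polynomial.C (toO0 Lw hLmem))
      (by rw [map_sub, map_pow, ev2_map_C, ev2_C, eval₂_toO0, eval₂_toO0, eval_rep h hαfix', hα,
        sub_self])
    rw [map_sub, map_pow, ev2_map_C, ev2_C, eval₂_toO0, eval₂_toO0] at this
    exact this.trans hκ
  have hypv : v (y ^ p) = v π ^ a := by rw [map_pow, hyv, ← map_pow, hα, ha]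
  have hyp0 : y ^ p ≠ 0 := by
    rw [← v.ne_zero_iff, hypv]
    exact pow_ne_zero _ hγ0.ne'
  have hLfix' : FixBy (stabilizer Γ θ) (Lw.eval π') := (hLfix.eval_fixBy hπ'fix).mono hle
  have hu : FixBy (stabilizer Γ θ) (Lw.eval π' / y ^ p) := by
    rw [div_eq_mul_inv]
    exact hLfix'.mul (hyfix.pow p).inv
  have hε : v (Lw.eval π' / y ^ p - 1) ≤ v (p : C) * v π ^ t := by
    have h1 : Lw.eval π' / y ^ p - 1 = (Lw.eval π' - y ^ p) / y ^ p := by
      field_simp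
    rw [h1, map_div₀, hypv, div_le_iff₀ (pow_pos hγ0 a), mul_assoc, ← pow_add, Valuation.map_sub_swap]
    exact hb
  obtain ⟨ρ₀, hρ₀, hρ₀p⟩ := exists_fixBy_root hp h.inv hu hτ' hε
  refine ⟨ρ₀ * y, hstab ▸ hρ₀.mul hyfix, ?_⟩
  rw [mul_pow, hρ₀p, div_mul_cancel₀ _ hyp0]

/-- **Theorem A** -/
theorem kumD_aux [IsAlgClosed C] (hp : p.Prime) (h : IsSH Γ v (p : C)) {π : C} {e : ℕ}
    (hπe : π ^ e = (p : C))
    (hFL : ∀ τ : Γ₀, τ ≠ 0 → τ ^ (p - 1) < v (p : C) → IsFL v H τ (v (p : C) * τ))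
    (heq : ∀ a ∈ H, ∀ (g : Γ) (w : W), a (g • w) = g • a w)
    {Lw : C[X]} (hLfix : FixPoly Γ Lw) (hLdeg : Lw.degree < (e : ℕ)) (hLint : ∀ i, v (Lw.coeff i) ≤ 1)
    {α : C} (hα : α ^ p = Lw.eval π) (hαfix : FixBy (stabilizer Γ π ⊓ kerAct Γ W) α)
    {i0 : ℕ} (hi0 : i0 + 3 ≤ e) (hpi0 : ¬ p ∣ i0) (hunit : v (Lw.coeff i0) = 1) : False := by
  classical
  -- the minimal bad index
  have hex : ∃ i, ¬ p ∣ i ∧ v (Lw.coeff i) = 1 := ⟨i0, hpi0, hunit⟩
  obtain ⟨hpi1, hunit1⟩ := Nat.find_spec hex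
  have hi1le : Nat.find hex ≤ i0 := Nat.find_min' hex ⟨hpi0, hunit⟩
  have hmin : ∀ i < Nat.find hex, ¬ p ∣ i → v (Lw.coeff i) < 1 := fun i hi hpi =>
    lt_of_le_of_ne (hLint i) (fun h1 => Nat.find_min hex hi ⟨hpi, h1⟩)
  generalize Nat.find hex = i1 at hpi1 hunit1 hi1le hmin
  have hπ := isTot_of_pow_eq h hπe
  have hγ0 : 0 < v π := val_pos_of_pow h hπ.pow
  have hγ1 : v π < 1 := val_lt_one_of_pow h hπ.pow
  have hanti := zpow_right_strictAnti₀ hγ0 hγ1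
  -- the valuation of `w`
  have hL0 : Lw ≠ 0 := by
    rintro rfl
    simp at hunit1
  obtain ⟨a, ha, hai⟩ : ∃ a : ℕ, v (Lw.eval π) = v π ^ a ∧ a ≤ i1 := by
    obtain ⟨m, hm⟩ := exists_val_eval_eq_zpow h hπ.pow hLfix hLdeg hL0
    have h1 := val_term_le_val_eval h hπ.pow hLfix hLdeg i1
    rw [map_mul, hunit1, one_mul, map_pow, hm, ← zpow_natCast] at h1
    have h2 : v (Lw.eval π) ≤ 1 := val_eval_le_one hLint hγ1.le
    rw [hm, ← zpow_zero (v π)] at h2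
    have h3 := hanti.le_iff_ge.mp h1
    have h4 := hanti.le_iff_ge.mp h2
    refine ⟨m.toNat, ?_, by omega⟩
    rw [hm, ← zpow_natCast, Int.toNat_of_nonneg h4]
  obtain ⟨t, ht1, ht2, ht3⟩ := exists_exponent hp (e := e) (i0 := i1) (by omega)
  have hs : e < (p - 1) * (t + a) := lt_of_lt_of_le ht1 (Nat.mul_le_mul_left _ (Nat.le_add_right _ _))
  have hτ : (v π ^ (t + a)) ^ (p - 1) < v (p : C) := by
    rw [← pow_mul, ← hπ.pow]
    exact pow_lt_pow_right_of_lt_one₀ hγ0 hγ1 (by rw [mul_comm]; exact hs)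
  have hopen : IsOpenIn C (stabilizer Γ π ⊓ kerAct Γ W) :=
    (isOpenIn_stabilizer π).inf (isOpenIn_kerAct (hFL _ (pow_ne_zero _ hγ0.ne') hτ) heq)
  obtain ⟨M, hM⟩ := exists_pair_fixBy_div (C := C) hp
    (inf_le_left : stabilizer Γ π ⊓ kerAct Γ W ≤ stabilizer Γ π)
    (exists_isTot_of_isOpenIn h hopen).1
  obtain ⟨c, hc, hcc⟩ := exists_incongruent hp h M
  choose ρ hρfix hρp using fun i : Fin M =>
    exists_root_pert hp h hπe hFL heq hLfix hLint hα hαfix ht1 ha (hc i).1 (hc i).2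
  have hπfix : FixBy (stabilizer Γ π) π := fixBy_stabilizer π
  have hπ'fix : ∀ i, FixBy (stabilizer Γ π) (π * (1 + c i * π ^ (t + a))) := fun i =>
    hπfix.mul ((Fix0.one.fixBy _).add (((hc i).1.fixBy _).mul (hπfix.pow _)))
  have ht0 : t + a ≠ 0 := by
    rintro h0
    rw [h0] at hs
    simp at hs
  have hπ'v : ∀ i, v (π * (1 + c i * π ^ (t + a))) = v π := fun i => by
    have hx : v (c i * π ^ (t + a)) < 1 := by
      rw [map_mul, map_pow]
      exact lt_of_le_of_lt (mul_le_of_le_one_left zero_le (hc i).2) (pow_lt_one₀ zero_le hγ1 ht0)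
    rw [map_mul, v.map_one_add_of_lt hx, mul_one]
  have hwv : ∀ i, v (Lw.eval (π * (1 + c i * π ^ (t + a)))) = v π ^ a := fun i => by
    rw [← ha]
    exact val_eval_congr h (by rw [hπ'v, hπ.pow]) hπ.pow hLfix hLdeg
  have hw0 : ∀ i, Lw.eval (π * (1 + c i * π ^ (t + a))) ≠ 0 := fun i => by
    rw [← v.ne_zero_iff, hwv]
    exact pow_ne_zero _ hγ0.ne'
  obtain ⟨i, j, hij, hfix⟩ := hM ρ
    (fun i h0 => hw0 i (by rw [← hρp, h0, zero_pow hp.ne_zero]))
    hρfix (fun i => by rw [hρp]; exact hLfix.eval_fixBy (hπ'fix i))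
  refine not_pow_of_level hp h hπ hfix (l := t + i1) ?_ (by omega) ht3 ht2
  have h1 : (ρ i / ρ j) ^ p - 1 = (Lw.eval (π * (1 + c i * π ^ (t + a))) -
      Lw.eval (π * (1 + c j * π ^ (t + a)))) / Lw.eval (π * (1 + c j * π ^ (t + a))) := by
    rw [div_pow, hρp, hρp, sub_div, div_self (hw0 j)]
  rw [h1, map_div₀, hwv, val_eval_pert_sub hp h hπ hLfix hLdeg hLint (by omega) hpi1 hunit1 hmin hs
    (hc i).2 (hc j).2 (hcc i j hij), div_eq_iff (pow_ne_zero _ hγ0.ne'), ← pow_add]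
  congr 1
  omega

end Fermat.Agent.S56.Font
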