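import Fermat.Agent.S56.Font.Kum

/-!
# S56 / Font / KumD : (KUM-D)                                   (WP FONT-KUMD)

(KUM-D) `π^e = p`, `w = ∑_{i<e} w_i π^i` (`w_i ∈ O_{K₀}`) with a `p`-th root in `L(W)`, `L = K₀(π)`.
Then `w_i` is a non-unit for EVERY `i` with `p ∤ i`.

PROOF from Theorem A (`kumD_aux`, which needs `i + 3 ≤ e`).  Suppose `v w_i = 1` (`hLint` gives `≤ 1`).  Then
`i < e` (the coefficient is `≠ 0`, `coeff_eq_zero_of_degree_lt`).  `N := p + 1` (`≥ 3`, prime to `p`), `π₁` with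
`π₁^N = π` (`IsAlgClosed.exists_pow_nat_eq`), so `π₁^(e N) = p`.  `Lw₁ := expand C N Lw`: `Lw₁(π₁) = Lw(π)`
(`expand_eval`), coefficients `coeff_expand` (fixed, integral), `coeff_expand_mul`: `Lw₁.coeff (i N) = w_i`,
degree `natDegree_expand`: `< e N`.  `Stab π₁ ≤ Stab π`, so `α` is fixed by `Stab π₁ ⊓ kerAct`.
`p ∤ i N` and `i N + 3 ≤ (i+1) N ≤ e N`.

`val_coeff_rep_eq_one`: `x ∈ K₀(π)`, `v x = v π ^ j`, `j < e` ⟹ the `j`-th coefficient of `rep h π x` is a unit.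
PROOF. `exists_max_term` for `L = rep h π x` (`≠ 0`) gives `j' < e`, `v x = v (L.coeff j' * π^j')`
(`val_eval_eq_of_max`, `eval_rep`), `v (L.coeff j') = v π ^ (e b)` (`exists_val_eq_zpow_mul`); so `e b + j' = j`
(`zpow_val_injective`), hence `b = 0`, `j' = j`.
-/

set_option autoImplicit false

namespace Fermat.Agent.S56.Font

open Polynomial MulAction

variable {Γ : Type*} [Group Γ] {C : Type*} [Field C] [MulSemiringAction Γ C]
  {Γ₀ : Type*} [LinearOrderedCommGroupWithZero Γ₀] {v : Valuation C Γ₀}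

theorem val_coeff_rep_eq_one {ϖ : C} (h : IsSH Γ v ϖ) {π : C} {e : ℕ} (hπ : IsTot Γ v ϖ π e) {x : C}
    (hx : FixBy (stabilizer Γ π) x) {j : ℕ} (hj : j < e) (hxv : v x = v π ^ j) :
    v ((rep h π x).coeff j) = 1 := by
  have hγ0 : 0 < v π := val_pos_of_pow h hπ.pow
  have hdeg : (rep h π x).degree < (e : ℕ) := by
    have := degree_rep_lt h π x
    rwa [hπ.index] at this
  have hfix := fixPoly_rep h hx
  have hev := eval_rep h hx
  have hx0 : x ≠ 0 := by
    rw [← v.ne_zero_iff, hxv]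
    exact pow_ne_zero _ hγ0.ne'
  have hL0 : rep h π x ≠ 0 := by
    intro h0
    rw [h0, eval_zero] at hev
    exact hx0 hev.symm
  obtain ⟨j', hj', hc0, hmax⟩ := exists_max_term h hπ.pow hfix hdeg hL0
  have h1 := val_eval_eq_of_max hdeg hj' hmax
  obtain ⟨b, hb⟩ := exists_val_eq_zpow_mul h hπ.pow (hfix j') hc0
  rw [hev, hxv, map_mul, hb, map_pow, ← zpow_natCast, ← zpow_natCast, ← zpow_add₀ hγ0.ne'] at h1
  have h2 : (j : ℤ) = (e : ℤ) * b + (j' : ℤ) := zpow_val_injective h hπ.pow h1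
  have hb0 : b = 0 := by
    have he : (0 : ℤ) < e := by exact_mod_cast (Nat.zero_lt_of_lt hj)
    have hj1 : (j : ℤ) < e := by exact_mod_cast hj
    have hj2 : (j' : ℤ) < e := by exact_mod_cast hj'
    have hj3 : (0 : ℤ) ≤ j := Int.natCast_nonneg j
    have hj4 : (0 : ℤ) ≤ j' := Int.natCast_nonneg j'
    by_contra hne
    rcases lt_or_gt_of_ne hne with hlt | hgt
    · have : (e : ℤ) * b ≤ (e : ℤ) * (-1) := mul_le_mul_of_nonneg_left (by omega) he.le
      omega
    · have : (e : ℤ) * 1 ≤ (e : ℤ) * b := mul_le_mul_of_nonneg_left (by omega) he.le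
      omega
  have hjj : j = j' := by
    rw [hb0, mul_zero, zero_add] at h2
    exact_mod_cast h2
  rw [hjj, hb, hb0, mul_zero, zpow_zero]

variable {p : ℕ} {W : Type*} [Fintype W] [MulAction Γ W] {H : Set (W → C)}

/-- **(KUM-D)** -/
theorem kumD [IsAlgClosed C] (hp : p.Prime) (h : IsSH Γ v (p : C)) {π : C} {e : ℕ}
    (hπe : π ^ e = (p : C))
    (hFL : ∀ τ : Γ₀, τ ≠ 0 → τ ^ (p - 1) < v (p : C) → IsFL v H τ (v (p : C) * τ))
    (heq : ∀ a ∈ H, ∀ (g : Γ) (w : W), a (g • w) = g • a w)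
    {Lw : C[X]} (hLfix : FixPoly Γ Lw) (hLdeg : Lw.degree < (e : ℕ)) (hLint : ∀ i, v (Lw.coeff i) ≤ 1)
    {α : C} (hα : α ^ p = Lw.eval π) (hαfix : FixBy (stabilizer Γ π ⊓ kerAct Γ W) α)
    {i : ℕ} (hpi : ¬ p ∣ i) : v (Lw.coeff i) < 1 := by
  refine lt_of_le_of_ne (hLint i) fun hunit => ?_
  have hie : i < e := by
    by_contra hge
    rw [not_lt] at hge
    have h0 : Lw.coeff i = 0 :=
      coeff_eq_zero_of_degree_lt (lt_of_lt_of_le hLdeg (by exact_mod_cast hge))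
    rw [h0, map_zero] at hunit
    exact zero_ne_one hunit
  have hN : 0 < p + 1 := Nat.succ_pos p
  obtain ⟨π₁, hπ₁⟩ := IsAlgClosed.exists_pow_nat_eq π hN
  have hπ₁e : π₁ ^ ((p + 1) * e) = (p : C) := by rw [pow_mul, hπ₁, hπe]
  have hstab : stabilizer Γ π₁ ≤ stabilizer Γ π := by
    intro g hg
    have hg' : g • π₁ = π₁ := hg
    show g • π = π
    rw [← hπ₁, smul_pow', hg']
  have hcoeff : ∀ n, (expand C (p + 1) Lw).coeff n =
      if (p + 1) ∣ n then Lw.coeff (n / (p + 1)) else 0 := fun n => coeff_expand hN Lw n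
  refine kumD_aux hp h hπ₁e hFL heq (Lw := expand C (p + 1) Lw) (α := α) (i0 := i * (p + 1))
    ?_ ?_ ?_ ?_ (hαfix.mono (inf_le_inf_right _ hstab)) ?_ ?_ ?_
  · intro n
    rw [hcoeff]
    split_ifs
    · exact hLfix _
    · exact Fix0.zero
  · rw [degree_lt_iff_coeff_zero]
    intro n hn
    rw [hcoeff]
    split_ifs with hd
    · refine coeff_eq_zero_of_degree_lt (lt_of_lt_of_le hLdeg ?_)
      have : e ≤ n / (p + 1) := (Nat.le_div_iff_mul_le hN).2 (by rw [mul_comm]; exact hn)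
      exact_mod_cast this
    · rfl
  · intro n
    rw [hcoeff]
    split_ifs
    · exact hLint _
    · rw [map_zero]; exact zero_le_one
  · rw [expand_eval, hπ₁, hα]
  · have h2 := hp.two_le
    calc i * (p + 1) + 3 ≤ i * (p + 1) + (p + 1) := by omega
      _ = (p + 1) * (i + 1) := by ring
      _ ≤ (p + 1) * e := Nat.mul_le_mul_left _ hie
  · intro hd
    rcases (Nat.Prime.dvd_mul hp).1 hd with h1 | h1
    · exact hpi h1
    · have : p ∣ 1 := (Nat.dvd_add_right (dvd_refl p)).1 h1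
      exact hp.one_lt.ne' (Nat.dvd_one.1 this)
  · rw [coeff_expand_mul hN]
    exact hunit

end Fermat.Agent.S56.Font
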