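import Fermat.Agent.S56.Font.Main

/-!
# S56 / Font / KumOK : the Kummer bound as a property of a subgroup `M ≤ Γ`

`L = K₀(π)`, `N = Stab π`.  `KumOK v p π M` : every `α ≠ 0` with `α^p ∈ L`, `α ∈ C^(N ⊓ M)` satisfies
`α^p ∈ (1 + p O_L) L^{×p}`.   `IsFnOrder.kumOK` : true for `M ⊇ kerAct Γ W`, `W` a `Γ`-module killed by `p` with an equivariant
function order.  This is the only way flatness enters the irreducible case.
-/

set_option autoImplicit false

namespace Fermat.Agent.S56.Font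

open MulAction

variable {C : Type} [Field C] {Γ₀ : Type} [LinearOrderedCommGroupWithZero Γ₀]
  {Γ : Type*} [Group Γ] [MulSemiringAction Γ C]

/-- the Kummer bound over `L = K₀(π)` for the extension cut out by `M` -/
def KumOK (v : Valuation C Γ₀) (p : ℕ) (π : C) (M : Subgroup Γ) : Prop :=
  ∀ α : C, α ≠ 0 → FixBy (stabilizer Γ π) (α ^ p) → FixBy (stabilizer Γ π ⊓ M) α →
    ∃ y : C, y ≠ 0 ∧ FixBy (stabilizer Γ π) y ∧ v (α ^ p * y ^ p - 1) ≤ v (p : C)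

theorem KumOK.mono {v : Valuation C Γ₀} {p : ℕ} {π : C} {M M' : Subgroup Γ} (h : KumOK v p π M)
    (hle : M ≤ M') : KumOK v p π M' :=
  fun α h0 h1 h2 => h α h0 h1 (fun s hs => h2 s ⟨hs.1, hle hs.2⟩)

theorem IsFnOrder.kumOK [IsAlgClosed C] {W : Type} [AddCommGroup W] [Fintype W] [MulAction Γ W]
    {v : Valuation C Γ₀} {H : Subring (W → C)} {p : ℕ} (hH : IsFnOrder v H) (hp : p.Prime)
    (hW : ∀ w : W, p • w = 0)
    (harch : ∀ g : Γ₀, g < 1 → ∀ d : Γ₀, d ≠ 0 → ∃ n : ℕ, g ^ n ≤ d)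
    (h : IsSH Γ v (p : C)) (heq : ∀ a ∈ H, ∀ (g : Γ) (w : W), a (g • w) = g • a w)
    {π : C} {e : ℕ} (hπe : π ^ e = (p : C)) : KumOK v p π (kerAct Γ W) :=
  fun α h0 h1 h2 => hH.kum hp hW harch h heq hπe h1 (pow_ne_zero _ h0) rfl h2

end Fermat.Agent.S56.Font
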