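import Fermat.Agent.S56.Font.KumD

/-!
# S56 / Font / KumVal : Kummer generators of `L(W)/L` have valuation divisible by `p`    (WP FONT-KUMVAL)

`π^e = p`, `L = K₀(π)`, `w ∈ L^×` with a `p`-th root `α` in `L(W)`, `v w = v π ^ m` (`m : ℤ`).  Then `p ∣ m`.

PROOF. Suppose not.  `N := 2 p + 1`, `π₁^N = π` (`IsAlgClosed.exists_pow_nat_eq`), `e₁ := e N ≥ 2p+1` (`e ≠ 0`),
`π₁^e₁ = p`, `hπ₁ := isTot_of_pow_eq h _ : IsTot Γ v p π₁ e₁`, `v π = v π₁ ^ N`, `v w = v π₁ ^ (m N)`, `p ∤ m N`.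
`j := (m N) % p ∈ (0,p)`, `k := - (m N / p)`, so `m N + p k = j`.  `w₁ := w * (π₁ ^ k) ^ p`, `α₁ := α * π₁ ^ k`
(`zpow`): `α₁^p = w₁`, `v w₁ = v π₁ ^ j` (as a natural power), `w₁` is fixed by `Stab π₁ ≤ Stab π`, `α₁` by
`Stab π₁ ⊓ kerAct`.  `Lw := rep h π₁ w₁` (`fixPoly_rep`, `degree_rep_lt` + `hπ₁.index`,
`IsTot.val_coeff_rep_le_one`, `eval_rep`).  `val_coeff_rep_eq_one` (`j < p ≤ e₁`): the `j`-th coefficient is a
unit; `kumD` (for `π₁, e₁`) says it is not, because `p ∤ j`.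
-/

set_option autoImplicit false

namespace Fermat.Agent.S56.Font

open Polynomial MulAction

variable {Γ : Type*} [Group Γ] {C : Type*} [Field C] [MulSemiringAction Γ C]
  {Γ₀ : Type*} [LinearOrderedCommGroupWithZero Γ₀] {v : Valuation C Γ₀}
  {p : ℕ} {W : Type*} [Fintype W] [MulAction Γ W] {H : Set (W → C)}

lemma FixBy.zpow' {N : Subgroup Γ} {x : C} (hx : FixBy N x) (n : ℤ) : FixBy N (x ^ n) := by
  cases n with
  | ofNat n => rw [Int.ofNat_eq_natCast, zpow_natCast]; exact hx.pow n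
  | negSucc n => rw [zpow_negSucc]; exact (hx.pow _).inv

theorem dvd_of_val_eq_zpow_of_root [IsAlgClosed C] (hp : p.Prime) (h : IsSH Γ v (p : C)) {π : C} {e : ℕ}
    (hπe : π ^ e = (p : C))
    (hFL : ∀ τ : Γ₀, τ ≠ 0 → τ ^ (p - 1) < v (p : C) → IsFL v H τ (v (p : C) * τ))
    (heq : ∀ a ∈ H, ∀ (g : Γ) (w : W), a (g • w) = g • a w)
    {w α : C} (hw : FixBy (stabilizer Γ π) w) (hα : α ^ p = w)
    (hαfix : FixBy (stabilizer Γ π ⊓ kerAct Γ W) α) {m : ℤ} (hm : v w = v π ^ m) : (p : ℤ) ∣ m := by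
  by_contra hpm
  have hp2 := hp.two_le
  have hpZ : Prime (p : ℤ) := Nat.prime_iff_prime_int.1 hp
  have he0 : e ≠ 0 := (isTot_of_pow_eq h hπe).ne_zero_n h
  have hN : 0 < 2 * p + 1 := Nat.succ_pos _
  obtain ⟨π₁, hπ₁⟩ := IsAlgClosed.exists_pow_nat_eq π hN
  have hπ₁e : π₁ ^ ((2 * p + 1) * e) = (p : C) := by rw [pow_mul, hπ₁, hπe]
  have hT := isTot_of_pow_eq h hπ₁e
  have hγ0 : 0 < v π₁ := val_pos_of_pow h hT.pow
  have hγ1 : v π₁ < 1 := val_lt_one_of_pow h hT.pow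
  have hπ₁0 : π₁ ≠ 0 := ne_zero_of_pow' h hT.pow
  have hstab : stabilizer Γ π₁ ≤ stabilizer Γ π := by
    intro g hg
    have hg' : g • π₁ = π₁ := hg
    show g • π = π
    rw [← hπ₁, smul_pow', hg']
  set M : ℤ := ((2 * p + 1 : ℕ) : ℤ) * m with hM
  have hwv : v w = v π₁ ^ M := by
    rw [hm, ← hπ₁, map_pow, hM, zpow_mul, zpow_natCast]
  have hpM : ¬ (p : ℤ) ∣ M := by
    intro hd
    rcases hpZ.dvd_or_dvd hd with h1 | h1
    · have h2 : p ∣ 2 * p + 1 := by exact_mod_cast h1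
      have h3 : p ∣ 1 := (Nat.dvd_add_right (Dvd.intro_left 2 rfl)).1 h2
      exact hp.one_lt.ne' (Nat.dvd_one.1 h3)
    · exact hpm h1
  have hp0 : (0 : ℤ) < p := by exact_mod_cast hp.pos
  obtain ⟨j, hj0, hjp, hjM⟩ : ∃ j : ℕ, 0 < j ∧ j < p ∧ M + (p : ℤ) * (-(M / p)) = j := by
    have h1 : 0 ≤ M % p := Int.emod_nonneg _ hp0.ne'
    have h2 : M % p < p := Int.emod_lt_of_pos _ hp0
    have h3 : M % p ≠ 0 := fun h0 => hpM (Int.dvd_of_emod_eq_zero h0)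
    have h4 := Int.emod_add_mul_ediv M p
    refine ⟨(M % p).toNat, by omega, by omega, ?_⟩
    rw [Int.toNat_of_nonneg h1]
    linarith
  set k : ℤ := -(M / p) with hk
  set w₁ : C := w * (π₁ ^ k) ^ p with hw₁
  set α₁ : C := α * π₁ ^ k with hα₁
  have hα₁p : α₁ ^ p = w₁ := by rw [hα₁, mul_pow, hα]
  have hπ₁fix : FixBy (stabilizer Γ π₁) π₁ := fixBy_stabilizer π₁
  have hw₁fix : FixBy (stabilizer Γ π₁) w₁ := (hw.mono hstab).mul ((hπ₁fix.zpow' k).pow p)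
  have hα₁fix : FixBy (stabilizer Γ π₁ ⊓ kerAct Γ W) α₁ :=
    (hαfix.mono (inf_le_inf_right _ hstab)).mul ((hπ₁fix.zpow' k).mono inf_le_left)
  have hw₁v : v w₁ = v π₁ ^ j := by
    rw [hw₁, map_mul, hwv, map_pow, map_zpow₀, ← zpow_natCast (v π₁ ^ k), ← zpow_mul,
      ← zpow_add₀ hγ0.ne', mul_comm k, hjM, zpow_natCast]
  have hw₁1 : v w₁ ≤ 1 := by rw [hw₁v]; exact pow_le_one₀ zero_le hγ1.le
  have hje : j < (2 * p + 1) * e := by
    have : 1 ≤ e := Nat.one_le_iff_ne_zero.2 he0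
    calc j < 2 * p + 1 := by omega
      _ = (2 * p + 1) * 1 := (mul_one _).symm
      _ ≤ (2 * p + 1) * e := Nat.mul_le_mul_left _ this
  have hunit := val_coeff_rep_eq_one h hT hw₁fix hje hw₁v
  have hdeg : (rep h π₁ w₁).degree < (((2 * p + 1) * e : ℕ) : ℕ) := by
    have := degree_rep_lt h π₁ w₁
    rwa [hT.index] at this
  have hlt := kumD hp h hπ₁e hFL heq (fixPoly_rep h hw₁fix) hdeg
    (hT.val_coeff_rep_le_one h hw₁fix hw₁1) (α := α₁) (by rw [eval_rep h hw₁fix, hα₁p]) hα₁fix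
    (i := j) (fun hd => absurd (Nat.le_of_dvd hj0 hd) (not_le.2 hjp))
  exact hlt.ne hunit

end Fermat.Agent.S56.Font
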