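import Fermat.Agent.S56.Font.KL
import Fermat.Agent.S56.Font.LT.Sub

/-!
# S56 / Font / Pert : perturbing the tame uniformiser                    (WP FONT-PERT)

`L = K₀(π)`, `π ^ e = ϖ`, `Γ' = Stab π`; `F = K₀(θ) ⊇ L` a finite extension with uniformiser `θ`
(`IsTot Γ v ϖ θ n`, `Stab θ ≤ Γ'`); `π'` another uniformiser of `L`.  `R = O0 Γ v = O_{K₀}` (a `Subring C`),
`φ = R.subtype`, `ev2 φ y x : R[Y][X] → C` the evaluation at `(Y,X) = (y,x)` (`KL.lean`).

`exists_pert` : there is `β` with `v β ^ n = v ϖ`, `[Γ : Stab β ⊓ Γ'] = n` and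
  `F ∈ R[Y][X]`, `F(π,θ) = 0` ⟹ `v (F(π',β)) ≤ v (π'^e - ϖ)`.

PROOF.
0. `h' := h.sub hπ : IsSH ↥Γ' v π` (`LT/Sub.lean`).  `r := (stabilizer ↥Γ' θ).index`.
   `stabilizer ↥Γ' θ = (stabilizer Γ θ).subgroupOf Γ'`, so `r = (Stab θ).relIndex Γ'` and `r * e = n`
   (`Subgroup.relIndex_mul_index hle`, `hπ.index`, `hθ.index`).  From `(v θ ^ r)^e = v θ ^ n = v ϖ = (v π)^e`:
   `v θ ^ r = v π` (`pow_left_inj₀`), so `hθ' : IsTot ↥Γ' v π θ r`.
1. `Prel := mp h' θ ∈ C[X]` is monic of degree `r`, Eisenstein for `(Γ', π)` (`IsTot.isEis_mp`), `Prel(θ) = 0`.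
   Its coefficients `a_j` are fixed by `Γ'` and integral; `A_j := toO0 (rep h π a_j) _ ∈ R[Y]` has degree `< e`
   and `A_j(π) = a_j` (`eval_rep`, `IsTot.val_coeff_rep_le_one`, `fixPoly_rep`).
   `PP := X^r + ∑_{j<r} C (A_j) X^j ∈ R[Y][X]` is monic of degree `r` (`monic_X_pow_add`), and
   `PP.map (eval₂RingHom φ π) = Prel`; so `ev2 φ π θ PP = 0` (`ev2_eq_eval_map`).
2. `Pt := PP.map (eval₂RingHom φ π') ∈ C[X]` is Eisenstein for `(Γ', π)`: monic of degree `r`; its coefficients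
   `A_j(π') = (rep h π a_j).eval π'` are fixed by `Γ'` (`FixPoly.eval_fixBy`), and
   `v (A_j(π')) = v (A_j(π)) = v a_j` by `val_eval_congr h` (`v π' ^ e = v π ^ e = v ϖ`, degree `< e`).
   `β` := a root of `Pt` (`IsAlgClosed.exists_root`, `r ≠ 0`).  `IsEis.isTot_root h'` : `IsTot ↥Γ' v π β r`.
   Hence `v β ^ n = (v β ^ r)^e = v π ^ e = v ϖ`; and `Stab_Γ β ⊓ Γ' = (stabilizer ↥Γ' β).map Γ'.subtype` has
   index `r * e = n` (`Subgroup.index_map_subtype`).
3. `kernel_lemma φ` with `M = X^e - C ϖ` (`ϖ ∈ R`), `P = PP`, `(y,x) = (π,θ)`, `(y',x') = (π',β)`; then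
   `F(π',β) = (π'^e - ϖ) * q(π',β)` and `v (q(π',β)) ≤ 1` (`val_ev2_le_one`).
   INDEPENDENCE `hind`: `G ∈ R[Y][X]`, `deg_X G < r`, all coefficients of degree `< e`, `G(π,θ) = 0`.
   `G₁ := G.map (eval₂RingHom φ π) ∈ C[X]` has coefficients fixed by `Γ'`, degree `< r`, `G₁(θ) = 0`; by
   `val_term_le_val_eval h' hθ'.pow` all `v (coeff * θ^j) ≤ 0`, so `G₁ = 0`: `(G.coeff j)(π) = 0` for all `j`.
   Same argument with `h`, `hπ.pow` for `(G.coeff j).map φ` (degree `< e`, `FixPoly Γ`): it is `0`; `φ` injective.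
-/

set_option autoImplicit false

namespace Fermat.Agent.S56.Font

open Polynomial MulAction

variable {Γ : Type*} [Group Γ] {C : Type*} [Field C] [MulSemiringAction Γ C]
  {Γ₀ : Type*} [LinearOrderedCommGroupWithZero Γ₀] {v : Valuation C Γ₀}

section Lift

/-- a polynomial over `C` with coefficients in `O_{K₀}`, as a polynomial over `O_{K₀}`. -/
noncomputable def toO0 (G : C[X]) (hG : ∀ i, G.coeff i ∈ O0 Γ v) : (↥(O0 Γ v))[X] :=
  G.toSubring (O0 Γ v) (fun _ hx => by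
    obtain ⟨i, -, rfl⟩ := mem_coeffs_iff.mp hx
    exact hG i)

lemma eval₂_toO0 (G : C[X]) (hG : ∀ i, G.coeff i ∈ O0 Γ v) (x : C) :
    eval₂ (O0 Γ v).subtype x (toO0 G hG) = G.eval x := by
  rw [eval₂_eq_eval_map]
  congr 1
  exact map_toSubring G (O0 Γ v) _

lemma val_eval₂_le_one {y : C} (hy : v y ≤ 1) (G : (↥(O0 Γ v))[X]) :
    v (eval₂ (O0 Γ v).subtype y G) ≤ 1 := by
  rw [eval₂_eq_sum_range]
  refine Valuation.map_sum_le v (fun i _ => ?_)
  rw [map_mul, map_pow]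
  exact mul_le_one' (G.coeff i).2.2 (pow_le_one₀ zero_le hy)

lemma fixPoly_map_subtype (G : (↥(O0 Γ v))[X]) : FixPoly Γ (G.map (O0 Γ v).subtype) := by
  intro i
  rw [coeff_map]
  exact (G.coeff i).2.1

lemma fixBy_eval₂ {N : Subgroup Γ} {y : C} (hy : FixBy N y) (G : (↥(O0 Γ v))[X]) :
    FixBy N (eval₂ (O0 Γ v).subtype y G) := by
  rw [eval₂_eq_eval_map]
  exact (fixPoly_map_subtype G).eval_fixBy hy

lemma val_ev2_le_one {y x : C} (hy : v y ≤ 1) (hx : v x ≤ 1) (F : (↥(O0 Γ v))[X][X]) :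
    v (ev2 (O0 Γ v).subtype y x F) ≤ 1 := by
  rw [ev2_eq_sum]
  refine Valuation.map_sum_le v (fun i _ => ?_)
  rw [map_mul, map_pow]
  exact mul_le_one' (val_eval₂_le_one hy _) (pow_le_one₀ zero_le hx)

lemma degree_sum_range_lt {A : Type*} [Semiring A] (f : ℕ → A) (r : ℕ) :
    (∑ j ∈ Finset.range r, Polynomial.C (f j) * X ^ j).degree < (r : WithBot ℕ) := by
  rw [Finset.sum_range]
  exact degree_sum_fin_lt (fun i : Fin r => f i)

lemma coeff_X_pow_add_sum {A : Type*} [Semiring A] (f : ℕ → A) {r i : ℕ} (hi : i < r) :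
    (X ^ r + ∑ j ∈ Finset.range r, Polynomial.C (f j) * X ^ j).coeff i = f i := by
  rw [coeff_add, coeff_X_pow, if_neg hi.ne, zero_add, finsetSum_coeff]
  simp only [coeff_C_mul, coeff_X_pow]
  rw [Finset.sum_eq_single i]
  · simp
  · intro j _ hj
    rw [if_neg (Ne.symm hj), mul_zero]
  · intro h
    exact absurd (Finset.mem_range.mpr hi) h

end Lift

variable {ϖ : C}

/-- linear independence of `1, y, …, y^(n-1)` over `K₀`. -/
lemma eq_zero_of_eval_eq_zero (h : IsSH Γ v ϖ) {y : C} {n : ℕ} (hy : v y ^ n = v ϖ) {L : C[X]}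
    (hL : FixPoly Γ L) (hdeg : L.degree < (n : ℕ)) (h0 : L.eval y = 0) : L = 0 := by
  ext i
  have h1 := val_term_le_val_eval h hy hL hdeg i
  rw [h0, map_zero, le_zero_iff, map_eq_zero] at h1
  rw [coeff_zero]
  exact (mul_eq_zero.mp h1).resolve_right (pow_ne_zero _ (ne_zero_of_pow' h hy))

/-- **the perturbed uniformiser** -/
theorem exists_pert [IsAlgClosed C] (h : IsSH Γ v ϖ) {π θ π' : C} {e n : ℕ}
    (hπ : IsTot Γ v ϖ π e) (hπe : π ^ e = ϖ) (hθ : IsTot Γ v ϖ θ n)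
    (hle : stabilizer Γ θ ≤ stabilizer Γ π)
    (hπ'fix : FixBy (stabilizer Γ π) π') (hπ'v : v π' = v π) :
    ∃ β : C, v β ^ n = v ϖ ∧ (stabilizer Γ β ⊓ stabilizer Γ π).index = n ∧
      ∀ F : (↥(O0 Γ v))[X][X], ev2 (O0 Γ v).subtype π θ F = 0 →
        v (ev2 (O0 Γ v).subtype π' β F) ≤ v (π' ^ e - ϖ) := by
  classical
  -- step 0
  have h' : IsSH ↥(stabilizer Γ π) v π := h.sub hπ
  have he0 : e ≠ 0 := hπ.ne_zero_n h
  have hstab : ∀ x : C, stabilizer ↥(stabilizer Γ π) x =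
      (stabilizer Γ x).subgroupOf (stabilizer Γ π) := by
    intro x
    ext g
    rfl
  obtain ⟨r, hr⟩ : ∃ r, r = (stabilizer ↥(stabilizer Γ π) θ).index := ⟨_, rfl⟩
  have hre : r * e = n := by
    have := Subgroup.relIndex_mul_index hle
    rw [hπ.index, hθ.index] at this
    rw [hr, hstab]
    exact this
  have hθr : v θ ^ r = v π := by
    have h5 : (v θ ^ r) ^ e = v π ^ e := by rw [← pow_mul, hre, hθ.pow, hπ.pow]
    exact (pow_left_inj₀ zero_le zero_le he0).mp h5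
  have hθ' : IsTot ↥(stabilizer Γ π) v π θ r := ⟨hθr, hr.symm⟩
  have hr0 : r ≠ 0 := hθ'.ne_zero_n h'
  have hπ1 : v π ≤ 1 := (val_lt_one_of_pow h hπ.pow).le
  have hπ'pow : v π' ^ e = v ϖ := by rw [hπ'v, hπ.pow]
  -- step 1
  have hEis : IsEis ↥(stabilizer Γ π) v π (mp h' θ) r := hθ'.isEis_mp h'
  have hafix : ∀ j, FixBy (stabilizer Γ π) ((mp h' θ).coeff j) :=
    fun j s hs => hEis.fix j ⟨s, hs⟩
  have haval : ∀ j, v ((mp h' θ).coeff j) ≤ 1 := by
    intro j
    rcases lt_trichotomy j r with hj | hj | hj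
    · exact (hEis.le j hj).trans hπ1
    · have : (mp h' θ).coeff j = 1 := by
        rw [hj, ← hEis.natDegree]
        exact hEis.monic.coeff_natDegree
      rw [this, map_one]
    · rw [coeff_eq_zero_of_natDegree_lt (by rw [hEis.natDegree]; exact hj), map_zero]
      exact zero_le
  have hmem : ∀ j i, (rep h π ((mp h' θ).coeff j)).coeff i ∈ O0 Γ v := fun j i =>
    ⟨fixPoly_rep h (hafix j) i, hπ.val_coeff_rep_le_one h (hafix j) (haval j) i⟩
  let A : ℕ → (↥(O0 Γ v))[X] := fun j => toO0 (rep h π ((mp h' θ).coeff j)) (hmem j)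
  have hA : ∀ (j : ℕ) (x : C), eval₂ (O0 Γ v).subtype x (A j) =
      (rep h π ((mp h' θ).coeff j)).eval x := fun j x => eval₂_toO0 _ _ x
  let PP : (↥(O0 Γ v))[X][X] := X ^ r + ∑ j ∈ Finset.range r, Polynomial.C (A j) * X ^ j
  have hPPmonic : PP.Monic := monic_X_pow_add (degree_sum_range_lt A r)
  have hPPdeg : PP.natDegree = r := by
    apply natDegree_eq_of_degree_eq_some
    have h6 : (∑ j ∈ Finset.range r, Polynomial.C (A j) * X ^ j).degree <
        ((X : (↥(O0 Γ v))[X][X]) ^ r).degree := by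
      rw [degree_X_pow]
      exact degree_sum_range_lt A r
    rw [degree_add_eq_left_of_degree_lt h6, degree_X_pow]
  have hPPmap : ∀ y : C, PP.map (eval₂RingHom (O0 Γ v).subtype y) =
      X ^ r + ∑ j ∈ Finset.range r,
        Polynomial.C ((rep h π ((mp h' θ).coeff j)).eval y) * X ^ j := by
    intro y
    simp only [PP, Polynomial.map_add, Polynomial.map_pow, Polynomial.map_X, Polynomial.map_sum,
      Polynomial.map_mul, Polynomial.map_C, coe_eval₂RingHom, hA]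
  have hPPπ : PP.map (eval₂RingHom (O0 Γ v).subtype π) = mp h' θ := by
    rw [hPPmap]
    conv_rhs => rw [hEis.monic.as_sum, hEis.natDegree]
    congr 1
    refine Finset.sum_congr rfl fun j _ => ?_
    rw [eval_rep h (hafix j)]
  have hPx : ev2 (O0 Γ v).subtype π θ PP = 0 := by
    rw [ev2_eq_eval_map, hPPπ, eval_mp_self]
  -- step 2
  have hcoeff : ∀ i < r, (PP.map (eval₂RingHom (O0 Γ v).subtype π')).coeff i =
      (rep h π ((mp h' θ).coeff i)).eval π' := by
    intro i hi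
    rw [hPPmap, coeff_X_pow_add_sum _ hi]
  have hval : ∀ i, v ((rep h π ((mp h' θ).coeff i)).eval π') = v ((mp h' θ).coeff i) := by
    intro i
    have hdeg := degree_rep_lt h π ((mp h' θ).coeff i)
    rw [hπ.index] at hdeg
    rw [← val_eval_congr h hπ.pow hπ'pow (fixPoly_rep h (hafix i)) hdeg, eval_rep h (hafix i)]
  have hEis' : IsEis ↥(stabilizer Γ π) v π (PP.map (eval₂RingHom (O0 Γ v).subtype π')) r := by
    refine ⟨hPPmonic.map _, ?_, ?_, ?_, ?_⟩
    · rw [hPPmonic.natDegree_map, hPPdeg]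
    · intro i g
      rw [coeff_map]
      exact fixBy_eval₂ hπ'fix _ g.1 g.2
    · intro i hi
      rw [hcoeff i hi, hval]
      exact hEis.le i hi
    · rw [hcoeff 0 (Nat.pos_of_ne_zero hr0), hval]
      exact hEis.zero
  obtain ⟨β, hβ⟩ := IsAlgClosed.exists_root (PP.map (eval₂RingHom (O0 Γ v).subtype π')) (by
    rw [degree_eq_natDegree hEis'.monic.ne_zero, hEis'.natDegree]
    exact_mod_cast hr0)
  have hβ' : IsTot ↥(stabilizer Γ π) v π β r := hEis'.isTot_root h' hβ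
  have hβn : v β ^ n = v ϖ := by rw [← hre, pow_mul, hβ'.pow, hπ.pow]
  have hPx' : ev2 (O0 Γ v).subtype π' β PP = 0 := by
    rw [ev2_eq_eval_map]
    exact hβ
  refine ⟨β, hβn, ?_, ?_⟩
  · have h1 := Subgroup.relIndex_mul_index
      (inf_le_right : stabilizer Γ β ⊓ stabilizer Γ π ≤ stabilizer Γ π)
    rw [Subgroup.inf_relIndex_right, hπ.index] at h1
    rw [← h1, ← hre]
    congr 1
    have h2 := hβ'.index
    rw [hstab] at h2
    exact h2
  -- step 3
  · intro F hF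
    let ϖR : ↥(O0 Γ v) := ⟨ϖ, h.fix, h.lt_one.le⟩
    have hM : (X ^ e - Polynomial.C ϖR : (↥(O0 Γ v))[X]).Monic := monic_X_pow_sub_C _ he0
    have hMev : ∀ y : C, eval₂ (O0 Γ v).subtype y (X ^ e - Polynomial.C ϖR) = y ^ e - ϖ := by
      intro y
      rw [eval₂_sub, eval₂_pow, eval₂_X, eval₂_C]
      rfl
    have hind : ∀ G : (↥(O0 Γ v))[X][X], G.degree < PP.degree →
        (∀ j, (G.coeff j).degree < (X ^ e - Polynomial.C ϖR : (↥(O0 Γ v))[X]).degree) →
        ev2 (O0 Γ v).subtype π θ G = 0 → G = 0 := by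
      intro G hG1 hG2 hG3
      rw [degree_eq_natDegree hPPmonic.ne_zero, hPPdeg] at hG1
      rw [degree_X_pow_sub_C (Nat.pos_of_ne_zero he0)] at hG2
      have h1 : G.map (eval₂RingHom (O0 Γ v).subtype π) = 0 := by
        refine eq_zero_of_eval_eq_zero h' hθ'.pow ?_ (lt_of_le_of_lt degree_map_le hG1) ?_
        · intro i g
          rw [coeff_map]
          exact fixBy_eval₂ (fixBy_stabilizer π) _ g.1 g.2
        · rw [← ev2_eq_eval_map]
          exact hG3
      ext1 j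
      rw [coeff_zero]
      have h2 : eval₂ (O0 Γ v).subtype π (G.coeff j) = 0 := by
        have := congrArg (fun P => P.coeff j) h1
        simpa [coeff_map] using this
      have h3 : (G.coeff j).map (O0 Γ v).subtype = 0 := by
        refine eq_zero_of_eval_eq_zero h hπ.pow (fixPoly_map_subtype _)
          (lt_of_le_of_lt degree_map_le (hG2 j)) ?_
        rw [← eval₂_eq_eval_map]
        exact h2
      exact (Polynomial.map_eq_zero_iff (Subring.subtype_injective _)).mp h3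
    obtain ⟨q, hq⟩ := kernel_lemma (O0 Γ v).subtype hM hPPmonic
      (by rw [hMev, hπe, sub_self]) hPx hPx' hind F hF
    rw [hq, hMev, map_mul]
    have hβ1 : v β ≤ 1 := (val_lt_one_of_pow h hβn).le
    have hπ'1 : v π' ≤ 1 := hπ'v ▸ hπ1
    exact mul_le_of_le_one_right' (val_ev2_le_one hπ'1 hβ1 q)

end Fermat.Agent.S56.Font
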